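/-
GATE-E / RISK-4 R4-G, leaf (g0-a) of helper55's board post 7844 (helper4): **the binder `hf0` of
`BaseB.NewSide`** — the dual of Ihara's lemma at `p` in the Hom-model, on the `𝔪`-primary parts.

For `p ∤ M` an odd prime, `O` a complete noetherian local domain of characteristic `0` and residue
characteristic `p`, `𝔪` a maximal ideal of the symbol algebra `MvPolynomial σ O` (no symbol is `p`)
which is non-Eisenstein at one symbol `s₀` prime to `M`, and `M` squarefree: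

  `(cores_p, coresD_p) : Hom(Γ₀(M p), O)_𝔪 → Hom(Γ₀(M), O)_𝔪 × Hom(Γ₀(M), O)_𝔪`   is ONTO.

* `castLam_coresP`, `tensHom_coresP`, … : `tensHom` (helper50) intertwines `coresP ⊗ O` with `cores`;
* `coresPO_actLam`, `coresDPO_actLam` : `β_p ⊗ O` is linear for the symbol algebra acting through
  `actLam` (helper74), every symbol `≠ p` (from helper41's `DegCommGen.coresAtLin_actN` through the
  injectivity of `tensHom`);
* `kill_pair` : helper46's `DualIhara.dual_ihara_baseChange` in pair form;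
* `exists_isLoc_lam` : the Lam-model statement (helper37's `LocSurj.exists_locPart_of_kill`);
* **`hf0_pointwise`** : the Hom-model statement at an arbitrary level literal `L = M * p`, for
  helper41's `coresAtLin`, `coresDAtLin`;
* **`surjective_prod_of_coe`** : `Function.Surjective (f₁.prod f₂)` for ANY pair of linear maps
  between the primary parts whose underlying maps are `coresAtLin`, `coresDAtLin`.
-/
import Mathlib
import Fermat.Agent.GE8.RaiseP.DegCommGen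
import Fermat.Agent.GE8.RaiseP.DualIhara
import Fermat.Agent.GE9.PNew.Inst.LocSurj
import Fermat.Agent.GE8.P3B.GE9.Eta.Base.LocBridgeBnd
import Fermat.Agent.GE8.P3B.StepGen
import Fermat.Agent.GE8.P3B.Ok3W

/- TWIN (helper6 B4 generator; conventions of helper24 / helper86) of `Fermat.Agent.GE8.RaiseP.Hf0Hom` with `p ≠ 3` relaxed to `Ok3A Sy 𝔪 p` / `Ok3W p W` (RISK-5 fix (B), step B4); everything below lives in the wrapper namespace `Fermat.Agent.GE8.P3B`. -/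
set_option linter.dupNamespace false
open Fermat Fermat.Agent Fermat.Agent.GB Fermat.Agent.GB.B3 Fermat.Agent.GB.B3.Loc Fermat.Agent.GB.B3.RealLevel Fermat.Agent.GB.B8 Fermat.Agent.GB.B8.LevelGamma0 Fermat.Agent.GB.B8.LevelGen Fermat.Agent.GB.B8.LevelStage Fermat.Agent.GE8 Fermat.Agent.GE8.RaiseP Fermat.Agent.GE8.RaiseP.DegCommGen Fermat.Agent.GE8.RaiseP.DualIhara Fermat.Agent.GE9 Fermat.Agent.GE9.Eta Fermat.Agent.GE9.Eta.Base Fermat.Agent.GE9.Eta.Base.LocBridge Fermat.Agent.GJ Fermat.Agent.GJ.J2 Fermat.Agent.GJ.J2.Lat Fermat.Agent.GM Fermat.Agent.GM.B Fermat.Agent.S16_helper49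

namespace Fermat.Agent.GE8.P3B

set_option autoImplicit false
set_option linter.unusedSectionVars false
set_option linter.style.haveILetI false

open scoped TensorProduct MatrixGroups
open CongruenceSubgroup ModularCurve.Period

namespace GE8.RaiseP.Hf0Hom

open MvPolynomial
open S16_helper49 GM.B
open GB.B3.RealLevel GB.B3.Loc
open Fermat.Agent.GB.B3.LocBridge (moduleOfAct isScalarTower_moduleOfAct isLoc_iff_mem_locPart)
open GB.B8.LevelStage GB.B8.LevelGen GB.B8.LevelGamma0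
open GJ.J2.Lat GE9.Eta.Base GE9.Eta.Base.LocBridge
open GE8.RaiseP.DegCommGen GE8.RaiseP.DualIhara

/-! ### `tensHom` and the `p`-transfers -/

section Tens

variable {p : ℕ} [Fact p.Prime] {M : ℕ} [NeZero M] [NeZero (M * p)] (hpM : ¬ p ∣ M)
  (O : Type) [CommRing O]

/-- `cores_p ⊗ O` on `O ⊗ Λ_{M p}` -/
noncomputable def coresPO : O ⊗[ℤ] Lam (M * p) →ₗ[O] O ⊗[ℤ] Lam M :=
  (coresP ℤ hpM).toIntLinearMap.baseChange O

/-- `coresD_p ⊗ O` on `O ⊗ Λ_{M p}` -/
noncomputable def coresDPO : O ⊗[ℤ] Lam (M * p) →ₗ[O] O ⊗[ℤ] Lam M :=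
  (coresDP ℤ hpM).toIntLinearMap.baseChange O

theorem castLam_coresP (Φ : Lam (M * p)) :
    castLam M O (coresP ℤ hpM Φ) = cores O hpM (castLam (M * p) O Φ) := by
  rw [castLam_eq, castLam_eq, coresP_coe]
  exact ((coresSys' hpM).op_comp_hom (Int.castAddHom O) _).symm

theorem castLam_coresDP (Φ : Lam (M * p)) :
    castLam M O (coresDP ℤ hpM Φ) = coresD O hpM (castLam (M * p) O Φ) := by
  rw [castLam_eq, castLam_eq, coresDP_coe]
  exact ((coresDSys' hpM).op_comp_hom (Int.castAddHom O) _).symm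

theorem tensHom_coresPO (w : O ⊗[ℤ] Lam (M * p)) :
    tensHom M O (coresPO hpM O w) = cores O hpM (tensHom (M * p) O w) := by
  unfold coresPO
  induction w using TensorProduct.induction_on with
  | zero => rw [map_zero, map_zero, map_zero, map_zero]
  | tmul c Φ =>
    rw [LinearMap.baseChange_tmul, tensHom_tmul, tensHom_tmul, AddMonoidHom.coe_toIntLinearMap,
      castLam_coresP]
    exact (op_smul (coresSys' hpM) c _).symm
  | add x y hx hy => rw [map_add, map_add, map_add, hx, hy, map_add]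

theorem tensHom_coresDPO (w : O ⊗[ℤ] Lam (M * p)) :
    tensHom M O (coresDPO hpM O w) = coresD O hpM (tensHom (M * p) O w) := by
  unfold coresDPO
  induction w using TensorProduct.induction_on with
  | zero => rw [map_zero, map_zero, map_zero, map_zero]
  | tmul c Φ =>
    rw [LinearMap.baseChange_tmul, tensHom_tmul, tensHom_tmul, AddMonoidHom.coe_toIntLinearMap,
      castLam_coresDP]
    exact (op_smul (coresDSys' hpM) c _).symm
  | add x y hx hy => rw [map_add, map_add, map_add, hx, hy, map_add]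

variable {σ : Type} (pr : σ → ℕ) (hpr : ∀ s, (pr s).Prime)

/-- **`cores_p ⊗ O` is linear for the symbol algebra** (no symbol is `p`) -/
theorem coresPO_actLam (hne : ∀ s, pr s ≠ p) (t : MvPolynomial σ O) (w : O ⊗[ℤ] Lam (M * p)) :
    coresPO hpM O (actLam O (M * p) pr hpr t w) = actLam O M pr hpr t (coresPO hpM O w) := by
  apply tensHom_injective M O
  rw [tensHom_coresPO, tens_actLam pr hpr (tensHom (M * p) O) (tensHom_latT (M * p) O),
    tens_actLam pr hpr (tensHom M O) (tensHom_latT M O), tensHom_coresPO]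
  have h := coresAtLin_actN pr hpr (rfl : M * p = M * p) hpM hne t (tensHom (M * p) O w)
  rwa [coresAtLin_apply, coresAtLin_apply, coresAt_rfl, coresAt_rfl] at h

/-- **`coresD_p ⊗ O` is linear for the symbol algebra** (no symbol is `p`) -/
theorem coresDPO_actLam (hne : ∀ s, pr s ≠ p) (t : MvPolynomial σ O) (w : O ⊗[ℤ] Lam (M * p)) :
    coresDPO hpM O (actLam O (M * p) pr hpr t w) = actLam O M pr hpr t (coresDPO hpM O w) := by
  apply tensHom_injective M O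
  rw [tensHom_coresDPO, tens_actLam pr hpr (tensHom (M * p) O) (tensHom_latT (M * p) O),
    tens_actLam pr hpr (tensHom M O) (tensHom_latT M O), tensHom_coresDPO]
  have h := coresDAtLin_actN pr hpr (rfl : M * p = M * p) hpM hne t (tensHom (M * p) O w)
  rwa [coresDAtLin_apply, coresDAtLin_apply, coresDAt_rfl, coresDAt_rfl] at h

end Tens

/-! ### the dual Ihara lemma in pair form -/

section Kill

variable {p : ℕ} [Fact p.Prime] {M : ℕ} [NeZero M] [NeZero (M * p)] (hpM : ¬ p ∣ M)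
  (O : Type) [CommRing O]

/-- helper46's `dual_ihara_baseChange` at `q := p`, `ϖ := p`, in pair form: for every pair
`(z₁, z₂)` of `O ⊗ Λ_M`, `(E z₁, E z₂) ∈ range (β_p ⊗ O) + p · (…)`, `E = T_{l0} − (l0 + 1)`. -/
theorem kill_pair (hp2 : p ≠ 2) (l0 : Nat.Primes) (hl0 : ¬ (l0 : ℕ) ∣ M)
    (z₁ z₂ : O ⊗[ℤ] Lam M) :
    ∃ (w : O ⊗[ℤ] Lam (M * p)) (z₁' z₂' : O ⊗[ℤ] Lam M),
      (eisE M l0).baseChange O z₁ = coresPO hpM O w + (p : O) • z₁' ∧
      (eisE M l0).baseChange O z₂ = coresDPO hpM O w + (p : O) • z₂' := by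
  set inlO := (LinearMap.inl ℤ (Lam M) (Lam M)).baseChange O with hinlO
  set inrO := (LinearMap.inr ℤ (Lam M) (Lam M)).baseChange O with hinrO
  set fstO := (LinearMap.fst ℤ (Lam M) (Lam M)).baseChange O with hfstO
  set sndO := (LinearMap.snd ℤ (Lam M) (Lam M)).baseChange O with hsndO
  obtain ⟨w, z', h⟩ := dual_ihara_baseChange hpM (Fact.out : p.Prime) hp2 l0 hl0 O (p : O)
    ⟨1, (mul_one _).symm⟩ (inlO z₁ + inrO z₂)
  refine ⟨w, fstO z', sndO z', ?_, ?_⟩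
  · have h1 := congrArg fstO h
    have e1 : fstO (((eisE M l0).prodMap (eisE M l0)).baseChange O (inlO z₁ + inrO z₂))
        = (eisE M l0).baseChange O z₁ := by
      have c1 : (LinearMap.fst ℤ (Lam M) (Lam M)) ∘ₗ ((eisE M l0).prodMap (eisE M l0))
          ∘ₗ (LinearMap.inl ℤ (Lam M) (Lam M)) = eisE M l0 := by
        refine LinearMap.ext fun x => ?_
        simp
      have c2 : (LinearMap.fst ℤ (Lam M) (Lam M)) ∘ₗ ((eisE M l0).prodMap (eisE M l0))
          ∘ₗ (LinearMap.inr ℤ (Lam M) (Lam M)) = 0 := by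
        refine LinearMap.ext fun x => ?_
        simp
      have k1 := LinearMap.congr_fun (congrArg (LinearMap.baseChange O) c1) z₁
      have k2 := LinearMap.congr_fun (congrArg (LinearMap.baseChange O) c2) z₂
      rw [LinearMap.baseChange_comp, LinearMap.baseChange_comp] at k1 k2
      rw [LinearMap.baseChange_zero, LinearMap.zero_apply] at k2
      rw [map_add, map_add]
      exact (congrArg₂ (· + ·) k1 k2).trans (add_zero _)
    have e2 : fstO ((betaP ℤ hpM).toIntLinearMap.baseChange O w) = coresPO hpM O w := by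
      have c3 : (LinearMap.fst ℤ (Lam M) (Lam M)) ∘ₗ (betaP ℤ hpM).toIntLinearMap
          = (coresP ℤ hpM).toIntLinearMap := by
        refine LinearMap.ext fun x => ?_
        rfl
      rw [hfstO, ← LinearMap.comp_apply, ← LinearMap.baseChange_comp, c3]
      rfl
    rw [e1, map_add, e2, map_smul] at h1
    exact h1
  · have h1 := congrArg sndO h
    have e1 : sndO (((eisE M l0).prodMap (eisE M l0)).baseChange O (inlO z₁ + inrO z₂))
        = (eisE M l0).baseChange O z₂ := by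
      have c1 : (LinearMap.snd ℤ (Lam M) (Lam M)) ∘ₗ ((eisE M l0).prodMap (eisE M l0))
          ∘ₗ (LinearMap.inl ℤ (Lam M) (Lam M)) = 0 := by
        refine LinearMap.ext fun x => ?_
        simp
      have c2 : (LinearMap.snd ℤ (Lam M) (Lam M)) ∘ₗ ((eisE M l0).prodMap (eisE M l0))
          ∘ₗ (LinearMap.inr ℤ (Lam M) (Lam M)) = eisE M l0 := by
        refine LinearMap.ext fun x => ?_
        simp
      have k1 := LinearMap.congr_fun (congrArg (LinearMap.baseChange O) c1) z₁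
      have k2 := LinearMap.congr_fun (congrArg (LinearMap.baseChange O) c2) z₂
      rw [LinearMap.baseChange_comp, LinearMap.baseChange_comp] at k1 k2
      rw [LinearMap.baseChange_zero, LinearMap.zero_apply] at k1
      rw [map_add, map_add]
      exact (congrArg₂ (· + ·) k1 k2).trans (zero_add _)
    have e2 : sndO ((betaP ℤ hpM).toIntLinearMap.baseChange O w) = coresDPO hpM O w := by
      have c3 : (LinearMap.snd ℤ (Lam M) (Lam M)) ∘ₗ (betaP ℤ hpM).toIntLinearMap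
          = (coresDP ℤ hpM).toIntLinearMap := by
        refine LinearMap.ext fun x => ?_
        rfl
      rw [hsndO, ← LinearMap.comp_apply, ← LinearMap.baseChange_comp, c3]
      rfl
    rw [e1, map_add, e2, map_smul] at h1
    exact h1

variable {σ : Type} (pr : σ → ℕ) (hpr : ∀ s, (pr s).Prime)

/-- the Eisenstein element `X s₀ − (ℓ_{s₀} + 1)` acts on `O ⊗ Λ_M` as `E_{ℓ_{s₀}} ⊗ O` -/
theorem actLam_eis (s₀ : σ) (z : O ⊗[ℤ] Lam M) :
    actLam O M pr hpr (X s₀ - C (((pr s₀ + 1 : ℕ) : O)) : MvPolynomial σ O) z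
      = (eisE M ⟨pr s₀, hpr s₀⟩).baseChange O z := by
  have h2 : (C (((pr s₀ + 1 : ℕ) : O)) : MvPolynomial σ O)
      = algebraMap O (MvPolynomial σ O) (((pr s₀ + 1 : ℕ) : O)) := rfl
  rw [map_sub, LinearMap.sub_apply, actLam_X, h2, AlgHom.commutes, Module.algebraMap_end_apply]
  unfold eisE
  rw [LinearMap.baseChange_sub, LinearMap.baseChange_smul, LinearMap.baseChange_id,
    LinearMap.sub_apply, LinearMap.smul_apply, LinearMap.id_apply]
  congr 1
  rw [← Int.cast_smul_eq_zsmul O]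
  congr 1
  push_cast
  rfl

end Kill

/-! ### the Lam-model statement -/

section LamModel

variable {O : Type} [CommRing O] [IsLocalRing O] [IsNoetherianRing O]
  [IsAdicComplete (IsLocalRing.maximalIdeal O) O]
  {p : ℕ} [Fact p.Prime] {M : ℕ} [NeZero M] [NeZero (M * p)] (hpM : ¬ p ∣ M)
  {σ : Type} (pr : σ → ℕ) (hpr : ∀ s, (pr s).Prime)

/-- **dual Ihara on the primary parts, Lam-model, symbol-algebra vocabulary**: every pair of
`𝔪`-primary elements of `O ⊗ Λ_M` is `(cores_p w, coresD_p w)` for an `𝔪`-primary `w` of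
`O ⊗ Λ_{M p}`. -/
theorem exists_isLoc_lam (hp2 : p ≠ 2) (hpO : (p : O) ∈ IsLocalRing.maximalIdeal O)
    (hne : ∀ s, pr s ≠ p) (𝔪 : Ideal (MvPolynomial σ O)) [𝔪.IsMaximal]
    (s₀ : σ) (hs₀M : ¬ pr s₀ ∣ M)
    (hτ : (X s₀ - C (((pr s₀ + 1 : ℕ) : O)) : MvPolynomial σ O) ∉ 𝔪)
    (x₁ x₂ : O ⊗[ℤ] Lam M) (h₁ : IsLoc (actLam O M pr hpr) 𝔪 x₁)
    (h₂ : IsLoc (actLam O M pr hpr) 𝔪 x₂) :
    ∃ w : O ⊗[ℤ] Lam (M * p), IsLoc (actLam O (M * p) pr hpr) 𝔪 w ∧
      coresPO hpM O w = x₁ ∧ coresDPO hpM O w = x₂ := by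
  letI iM : Module (MvPolynomial σ O) (O ⊗[ℤ] Lam M) := moduleOfAct (actLam O M pr hpr)
  haveI tM : IsScalarTower O (MvPolynomial σ O) (O ⊗[ℤ] Lam M) :=
    isScalarTower_moduleOfAct (actLam O M pr hpr)
  letI iMp : Module (MvPolynomial σ O) (O ⊗[ℤ] Lam (M * p)) :=
    moduleOfAct (actLam O (M * p) pr hpr)
  haveI tMp : IsScalarTower O (MvPolynomial σ O) (O ⊗[ℤ] Lam (M * p)) :=
    isScalarTower_moduleOfAct (actLam O (M * p) pr hpr)
  -- the pair map, linear for the symbol algebra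
  let f : (O ⊗[ℤ] Lam (M * p)) →ₗ[MvPolynomial σ O] ((O ⊗[ℤ] Lam M) × (O ⊗[ℤ] Lam M)) :=
    { toFun := fun w => (coresPO hpM O w, coresDPO hpM O w)
      map_add' := fun w w' => by rw [map_add, map_add]; rfl
      map_smul' := fun t w => by
        show (coresPO hpM O (actLam O (M * p) pr hpr t w),
            coresDPO hpM O (actLam O (M * p) pr hpr t w))
          = (actLam O M pr hpr t (coresPO hpM O w), actLam O M pr hpr t (coresDPO hpM O w))
        rw [coresPO_actLam hpM O pr hpr hne, coresDPO_actLam hpM O pr hpr hne] }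
  have hf : ∀ w, f w = (coresPO hpM O w, coresDPO hpM O w) := fun _ => rfl
  have hkill : ∀ z : (O ⊗[ℤ] Lam M) × (O ⊗[ℤ] Lam M),
      ∃ (w : O ⊗[ℤ] Lam (M * p)) (z' : (O ⊗[ℤ] Lam M) × (O ⊗[ℤ] Lam M)),
        (X s₀ - C (((pr s₀ + 1 : ℕ) : O)) : MvPolynomial σ O) • z = f w + (p : O) • z' := by
    rintro ⟨z₁, z₂⟩
    obtain ⟨w, z₁', z₂', e1, e2⟩ := kill_pair hpM O hp2 ⟨pr s₀, hpr s₀⟩ hs₀M z₁ z₂
    refine ⟨w, (z₁', z₂'), ?_⟩
    rw [hf, Prod.smul_mk, Prod.smul_mk, Prod.mk_add_mk, ← e1, ← e2]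
    refine Prod.ext ?_ ?_
    · exact actLam_eis O pr hpr s₀ z₁
    · exact actLam_eis O pr hpr s₀ z₂
  have hx : ((x₁, x₂) : (O ⊗[ℤ] Lam M) × (O ⊗[ℤ] Lam M))
      ∈ locPart 𝔪 ((O ⊗[ℤ] Lam M) × (O ⊗[ℤ] Lam M)) := by
    rw [mem_locPart]
    intro s hs
    obtain ⟨y₁, hy₁⟩ := h₁ s hs
    obtain ⟨y₂, hy₂⟩ := h₂ s hs
    refine ⟨(y₁, y₂), ?_⟩
    rw [Prod.smul_mk]
    exact Prod.ext hy₁ hy₂
  obtain ⟨w, hw, hwx⟩ := GE9.PNew.Inst.exists_locPart_of_kill O 𝔪 f
    (X s₀ - C (((pr s₀ + 1 : ℕ) : O)) : MvPolynomial σ O) hτ (p : O) hpO hkill (x₁, x₂) hx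
  refine ⟨w, (isLoc_iff_mem_locPart (actLam O (M * p) pr hpr) (fun _ _ => rfl) 𝔪 w).2 hw, ?_, ?_⟩
  · exact congrArg Prod.fst hwx
  · exact congrArg Prod.snd hwx

end LamModel

/-! ### the Hom-model statement -/

section HomModel

variable {O : Type} [CommRing O] [IsLocalRing O] [IsNoetherianRing O]
  [IsAdicComplete (IsLocalRing.maximalIdeal O) O] [IsDomain O] [CharZero O]
  {p : ℕ} [Fact p.Prime] {σ : Type} (pr : σ → ℕ) (hpr : ∀ s, (pr s).Prime)

/-- **the dual of Ihara's lemma at `p` on the primary parts, Hom-model** (= `hf0` of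
`BaseB.NewSide`, pointwise): `L = M * p`, `p ∤ M` odd, `M` squarefree, residue characteristic `p`,
no symbol is `p`, `𝔪` non-Eisenstein at a symbol `s₀` prime to `M`.  Every pair of `𝔪`-primary
classes of level `M` is `(cores_p w, coresD_p w)` for an `𝔪`-primary class `w` of level `L`. -/
theorem hf0_pointwise {L M : ℕ} [NeZero M] (hL : L = M * p) (hpM : ¬ p ∣ M) (hp2 : p ≠ 2)
    (hpO : (p : O) ∈ IsLocalRing.maximalIdeal O) (hM : Squarefree M)
    (hne : ∀ s, pr s ≠ p) (𝔪 : Ideal (MvPolynomial σ O)) [𝔪.IsMaximal]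
    (s₀ : σ) (hs₀M : ¬ pr s₀ ∣ M)
    (hτ : (X s₀ - C (((pr s₀ + 1 : ℕ) : O)) : MvPolynomial σ O) ∉ 𝔪)
    (y₁ y₂ : Additive (Gamma0 M) →+ O) (h₁ : IsLoc (actN O pr hpr M) 𝔪 y₁)
    (h₂ : IsLoc (actN O pr hpr M) 𝔪 y₂) :
    ∃ w : Additive (Gamma0 L) →+ O, IsLoc (actN O pr hpr L) 𝔪 w ∧
      coresAtLin O hL hpM w = y₁ ∧ coresDAtLin O hL hpM w = y₂ := by
  subst hL
  haveI : NeZero (M * p) := ⟨Nat.mul_ne_zero (NeZero.ne M) (Fact.out : p.Prime).ne_zero⟩
  haveI : Module.Finite O (Additive (Gamma0 M) →+ O) := finite_hom O M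
  have hbnd : ∀ y : Additive (Gamma0 M) →+ O, IsLoc (actN O pr hpr M) 𝔪 y →
      ∃ x, tensHom M O x = y := fun y hy =>
    exists_tensHom_eq M O (mem_parabolicHoms_iff.2
      (GE9.Eta.Base.LocBridgeBnd.hbnd_actN_of_squarefree pr hpr M hM 𝔪 s₀ hs₀M hτ
        y hy))
  obtain ⟨x₁, hx₁, hxy₁⟩ := exists_isLoc_of_isLoc (actLam O M pr hpr) (actN O pr hpr M) 𝔪
    (tensHom M O) (tensHom_injective M O) (tens_actLam pr hpr _ (tensHom_latT M O)) hbnd h₁
  obtain ⟨x₂, hx₂, hxy₂⟩ := exists_isLoc_of_isLoc (actLam O M pr hpr) (actN O pr hpr M) 𝔪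
    (tensHom M O) (tensHom_injective M O) (tens_actLam pr hpr _ (tensHom_latT M O)) hbnd h₂
  obtain ⟨w, hw, hw₁, hw₂⟩ := exists_isLoc_lam hpM pr hpr hp2 hpO hne 𝔪 s₀ hs₀M hτ x₁ x₂ hx₁ hx₂
  refine ⟨tensHom (M * p) O w, ?_, ?_, ?_⟩
  · exact isLoc_map (actLam O (M * p) pr hpr) (actN O pr hpr (M * p)) 𝔪 (tensHom (M * p) O)
      (tens_actLam pr hpr _ (tensHom_latT (M * p) O)) hw
  · rw [coresAtLin_apply, coresAt_rfl, ← tensHom_coresPO, hw₁, hxy₁]
  · rw [coresDAtLin_apply, coresDAt_rfl, ← tensHom_coresDPO, hw₂, hxy₂]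

/-- **`hf0`**: for ANY pair of linear maps `f₁ f₂` between the `𝔪`-primary parts (in the `locSub`
vocabulary of GB/B8) whose underlying maps are `cores_p`, `coresD_p`, the pair `(f₁, f₂)` is onto. -/
theorem surjective_prod_of_coe {L M : ℕ} [NeZero M] (hL : L = M * p) (hpM : ¬ p ∣ M) (hp2 : p ≠ 2)
    (hpO : (p : O) ∈ IsLocalRing.maximalIdeal O) (hM : Squarefree M)
    (hne : ∀ s, pr s ≠ p) (𝔪 : Ideal (MvPolynomial σ O)) [𝔪.IsMaximal]
    (s₀ : σ) (hs₀M : ¬ pr s₀ ∣ M)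
    (hτ : (X s₀ - C (((pr s₀ + 1 : ℕ) : O)) : MvPolynomial σ O) ∉ 𝔪)
    (f₁ f₂ : ↥(locSub (actN O pr hpr L) 𝔪) →ₗ[O] ↥(locSub (actN O pr hpr M) 𝔪))
    (hf₁ : ∀ y, ((f₁ y : ↥(locSub (actN O pr hpr M) 𝔪)) : Additive (Gamma0 M) →+ O)
      = coresAtLin O hL hpM (y : Additive (Gamma0 L) →+ O))
    (hf₂ : ∀ y, ((f₂ y : ↥(locSub (actN O pr hpr M) 𝔪)) : Additive (Gamma0 M) →+ O)
      = coresDAtLin O hL hpM (y : Additive (Gamma0 L) →+ O)) :
    Function.Surjective (f₁.prod f₂) := by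
  rintro ⟨y₁, y₂⟩
  obtain ⟨w, hw, hw₁, hw₂⟩ := hf0_pointwise pr hpr hL hpM hp2 hpO hM hne 𝔪 s₀ hs₀M hτ
    (y₁ : Additive (Gamma0 M) →+ O) (y₂ : Additive (Gamma0 M) →+ O) y₁.2 y₂.2
  refine ⟨⟨w, hw⟩, Prod.ext (Subtype.ext ?_) (Subtype.ext ?_)⟩
  · exact (hf₁ ⟨w, hw⟩).trans hw₁
  · exact (hf₂ ⟨w, hw⟩).trans hw₂

end HomModel

/-! ### the canonical restricted transfers -/

section Canon

variable {O : Type} [CommRing O] {p : ℕ} [Fact p.Prime] {σ : Type} (pr : σ → ℕ)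
  (hpr : ∀ s, (pr s).Prime)

/-- `cores_p` on the `𝔪`-primary parts (any level literal `L = M * p`, no symbol is `p`) -/
noncomputable def coresLoc {L M : ℕ} (hL : L = M * p) (hpM : ¬ p ∣ M) (hne : ∀ s, pr s ≠ p)
    (𝔪 : Ideal (MvPolynomial σ O)) :
    ↥(locSub (actN O pr hpr L) 𝔪) →ₗ[O] ↥(locSub (actN O pr hpr M) 𝔪) :=
  ((coresAtLin O hL hpM).comp (locSub (actN O pr hpr L) 𝔪).subtype).codRestrict
    (locSub (actN O pr hpr M) 𝔪)
    (fun y => isLoc_map (actN O pr hpr L) (actN O pr hpr M) 𝔪 (coresAtLin O hL hpM)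
      (coresAtLin_actN pr hpr hL hpM hne) y.2)

/-- `coresD_p` on the `𝔪`-primary parts (any level literal `L = M * p`, no symbol is `p`) -/
noncomputable def coresDLoc {L M : ℕ} (hL : L = M * p) (hpM : ¬ p ∣ M) (hne : ∀ s, pr s ≠ p)
    (𝔪 : Ideal (MvPolynomial σ O)) :
    ↥(locSub (actN O pr hpr L) 𝔪) →ₗ[O] ↥(locSub (actN O pr hpr M) 𝔪) :=
  ((coresDAtLin O hL hpM).comp (locSub (actN O pr hpr L) 𝔪).subtype).codRestrict
    (locSub (actN O pr hpr M) 𝔪)
    (fun y => isLoc_map (actN O pr hpr L) (actN O pr hpr M) 𝔪 (coresDAtLin O hL hpM)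
      (coresDAtLin_actN pr hpr hL hpM hne) y.2)

@[simp] theorem coe_coresLoc {L M : ℕ} (hL : L = M * p) (hpM : ¬ p ∣ M) (hne : ∀ s, pr s ≠ p)
    (𝔪 : Ideal (MvPolynomial σ O)) (y : ↥(locSub (actN O pr hpr L) 𝔪)) :
    ((coresLoc pr hpr hL hpM hne 𝔪 y : ↥(locSub (actN O pr hpr M) 𝔪)) : Additive (Gamma0 M) →+ O)
      = coresAtLin O hL hpM (y : Additive (Gamma0 L) →+ O) := rfl

@[simp] theorem coe_coresDLoc {L M : ℕ} (hL : L = M * p) (hpM : ¬ p ∣ M) (hne : ∀ s, pr s ≠ p)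
    (𝔪 : Ideal (MvPolynomial σ O)) (y : ↥(locSub (actN O pr hpr L) 𝔪)) :
    ((coresDLoc pr hpr hL hpM hne 𝔪 y : ↥(locSub (actN O pr hpr M) 𝔪)) : Additive (Gamma0 M) →+ O)
      = coresDAtLin O hL hpM (y : Additive (Gamma0 L) →+ O) := rfl

/-- `coresLoc` is equivariant for the restricted actions -/
theorem coresLoc_locAct {L M : ℕ} (hL : L = M * p) (hpM : ¬ p ∣ M) (hne : ∀ s, pr s ≠ p)
    (𝔪 : Ideal (MvPolynomial σ O)) (t : MvPolynomial σ O) (y : ↥(locSub (actN O pr hpr L) 𝔪)) :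
    coresLoc pr hpr hL hpM hne 𝔪 (locAct (actN O pr hpr L) 𝔪 t y)
      = locAct (actN O pr hpr M) 𝔪 t (coresLoc pr hpr hL hpM hne 𝔪 y) :=
  Subtype.ext (coresAtLin_actN pr hpr hL hpM hne t (y : Additive (Gamma0 L) →+ O))

/-- `coresDLoc` is equivariant for the restricted actions -/
theorem coresDLoc_locAct {L M : ℕ} (hL : L = M * p) (hpM : ¬ p ∣ M) (hne : ∀ s, pr s ≠ p)
    (𝔪 : Ideal (MvPolynomial σ O)) (t : MvPolynomial σ O) (y : ↥(locSub (actN O pr hpr L) 𝔪)) :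
    coresDLoc pr hpr hL hpM hne 𝔪 (locAct (actN O pr hpr L) 𝔪 t y)
      = locAct (actN O pr hpr M) 𝔪 t (coresDLoc pr hpr hL hpM hne 𝔪 y) :=
  Subtype.ext (coresDAtLin_actN pr hpr hL hpM hne t (y : Additive (Gamma0 L) →+ O))

/-- the kernel of the canonical pair is the `p`-new part of the primary part -/
theorem mem_ker_prod_iff {L M : ℕ} (hL : L = M * p) (hpM : ¬ p ∣ M) (hne : ∀ s, pr s ≠ p)
    (𝔪 : Ideal (MvPolynomial σ O)) (y : ↥(locSub (actN O pr hpr L) 𝔪)) :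
    y ∈ LinearMap.ker ((coresLoc pr hpr hL hpM hne 𝔪).prod (coresDLoc pr hpr hL hpM hne 𝔪))
      ↔ (y : Additive (Gamma0 L) →+ O) ∈ GE8.RaiseP.DegComm.pNewSub p O O L := by
  rw [pNewSub_eq_at hL hpM, Submodule.mem_inf, LinearMap.mem_ker, LinearMap.mem_ker,
    LinearMap.mem_ker, ← coe_coresLoc pr hpr hL hpM hne 𝔪, ← coe_coresDLoc pr hpr hL hpM hne 𝔪,
    Submodule.coe_eq_zero, Submodule.coe_eq_zero]
  exact Prod.mk_eq_zero

variable [IsLocalRing O] [IsNoetherianRing O] [IsAdicComplete (IsLocalRing.maximalIdeal O) O]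
  [IsDomain O] [CharZero O]

/-- **`hf0` for the canonical pair** `(coresLoc, coresDLoc)`. -/
theorem surjective_coresLoc_prod {L M : ℕ} [NeZero M] (hL : L = M * p) (hpM : ¬ p ∣ M)
    (hp2 : p ≠ 2) (hpO : (p : O) ∈ IsLocalRing.maximalIdeal O) (hM : Squarefree M)
    (hne : ∀ s, pr s ≠ p) (𝔪 : Ideal (MvPolynomial σ O)) [𝔪.IsMaximal]
    (s₀ : σ) (hs₀M : ¬ pr s₀ ∣ M)
    (hτ : (X s₀ - C (((pr s₀ + 1 : ℕ) : O)) : MvPolynomial σ O) ∉ 𝔪) :
    Function.Surjective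
      ((coresLoc pr hpr hL hpM hne 𝔪).prod (coresDLoc pr hpr hL hpM hne 𝔪)) :=
  surjective_prod_of_coe pr hpr hL hpM hp2 hpO hM hne 𝔪 s₀ hs₀M hτ _ _
    (fun _ => rfl) (fun _ => rfl)

end Canon

end GE8.RaiseP.Hf0Hom

end Fermat.Agent.GE8.P3B
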