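/-
GATE-E / RISK-4 PNEW-STAGE, leaf R4-G NODE, layer 1 (helper55): **`BaseB.NewSideStmt` from a RECORD
on the `p`-new level at every Taylor–Wiles set.**

The SO(b) twin of helper72's `GE6/Inst/NodeProof.nodeStmt_of_recordStmt`.  helper72's record
`NodeProof.RecordAt F ι₁ pr sym DQ g` is stated over an ABSTRACT `FreeLevel F`, so it is reused
verbatim at `F := BaseB.newLevel … φα φβ hf0`, the `p`-new level `K_Q = ker (φα, φβ)` of a pair of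
degeneracy morphisms over the FIXED base maps `f₁ f₂ : MF → P0`:

* `NewRecordAt hp hp𝒪 E f₁ f₂ hf0 t₀ DQ g` : the two levels `F`, `G` with `φα`, `φβ`, good symbols
  `sym : ι₁ → 𝕋` of primes `pr : ι₁ → ℕ`, the record `RecordAt (newLevel …) ι₁ pr sym DQ g`
  (local `T_Q`, `a`, `ψ`, `ρ_Q`, (ES), (GEN), (PI), (UNIT)) and the base compatibility
  `sym s` acts on `ker (f₁, f₂)` as `t₀ (pr s)`;
* **`nonempty_newSide_of_record`** : the record + the base side (`T₀` complete noetherian local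
  acting FAITHFULLY on `ker (f₁, f₂)`, `φ₀ : R_∅ → T₀` with `ρ^univ_∅ ⊗ ≅ ρ_{T₀}`, Eichler–Shimura of
  `ρ_{T₀}` with the same `t₀`) ⟹ `Nonempty NewSide` ((SEMILIN) through
  `WireNew.nonempty_newSide_of_frob`);
* `NewRecordStmt`, **`newSideStmt_of_recordStmt`** : for all Taylor–Wiles data.
-/
import Fermat.Agent.GE8.RaiseP.WireNew
import Fermat.Agent.GE8.P3B.GE6.Inst.NodeProof
import Fermat.Agent.GE8.P3B.StepGen
import Fermat.Agent.GE8.P3B.Ok3W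

/- TWIN (helper6 B4 generator; conventions of helper24 / helper86) of `Fermat.Agent.GE8.RaiseP.NodeNew` with `p ≠ 3` relaxed to `Ok3A Sy 𝔪 p` / `Ok3W p W` (RISK-5 fix (B), step B4); everything below lives in the wrapper namespace `Fermat.Agent.GE8.P3B`. -/
set_option linter.dupNamespace false
open Fermat Fermat.Agent Fermat.Agent.GB Fermat.Agent.GB.B3 Fermat.Agent.GB.B3.TWLevel Fermat.Agent.GB.E2 Fermat.Agent.GB.E2.TameGenAdic Fermat.Agent.GE Fermat.Agent.GE.Graph Fermat.Agent.GE2 Fermat.Agent.GE2.DeltaQData Fermat.Agent.GE6 Fermat.Agent.GE6.Inst Fermat.Agent.GE6.Inst.AssemblyE Fermat.Agent.GE6.Inst.ModSide Fermat.Agent.GE8 Fermat.Agent.GE8.RaiseP Fermat.Agent.GE8.RaiseP.BaseB Fermat.Agent.GE8.RaiseP.NewLevel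

namespace Fermat.Agent.GE8.P3B

set_option autoImplicit false
set_option linter.unusedSectionVars false
set_option linter.unusedVariables false
set_option linter.style.haveILetI false

namespace GE8.RaiseP.NodeNew

open IsLocalRing Function Polynomial GaloisRep
open GB.B3.TWLevel
open GE8.RaiseP.NewLevel GE8.RaiseP.BaseB
open GE6.Inst.ModSide GE6.Inst.AssemblyE
open GE6.Inst.NodeProof
open GE.Graph GE2.DeltaQData GB.E2.TameGenAdic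

/-- `ℚ̄`. -/
local notation "Qb" => AlgebraicClosure ℚ
/-- `G_ℚ`. -/
local notation "GQ" => (AlgebraicClosure ℚ ≃ₐ[ℚ] AlgebraicClosure ℚ)

section Abs

variable {𝒪 : Type} [CommRing 𝒪] [IsDomain 𝒪] [IsDiscreteValuationRing 𝒪]
  [IsAdicComplete (maximalIdeal 𝒪) 𝒪]
  {ρbar : ResidualGaloisRep (ResidueField 𝒪)}
  {𝒟₀ 𝒟Q : ∀ ⦃A : Type⦄ [CommRing A] [IsLocalRing A] [Algebra 𝒪 A], GaloisRepAdic A → Prop}
  {T₀ : Type} [CommRing T₀]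
  {p r : ℕ} (hp : p.Prime) (hp𝒪 : (p : 𝒪) ∈ maximalIdeal 𝒪) (E : Fin r → ℕ)
  {MF : Type} [AddCommGroup MF] [Module 𝒪 MF] {P0 : Type} [AddCommGroup P0] [Module 𝒪 P0]
  (f₁ f₂ : MF →ₗ[𝒪] P0) (hf0 : Surjective (f₁.prod f₂))
  [Module T₀ (LinearMap.ker (f₁.prod f₂))]

/-- **the record on the `p`-new level at one Taylor–Wiles set**: the two levels over the fixed base
maps, helper72's `RecordAt` on `newLevel`, and the base compatibility of the good symbols. -/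
structure NewRecordAt (t₀ : ℕ → T₀) (DQ : DeformationRingData 𝒪 ρbar 𝒟Q)
    (g : Fin r → (DQ.R)ˣ) : Type 1 where
  /-- the Hecke symbols -/
  𝕋 : Type
  [instCommRing𝕋 : CommRing 𝕋]
  [instAlgebra𝕋 : Algebra 𝒪 𝕋]
  /-- their actions on the two base modules -/
  actF : 𝕋 →ₐ[𝒪] Module.End 𝒪 MF
  actP : 𝕋 →ₐ[𝒪] Module.End 𝒪 P0
  /-- the big level (level `N'p`) -/
  F : FreeLevel 𝒪 𝕋 MF actF r (fun j => p ^ E j)
  /-- the lower level (level `N'`) -/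
  G : FreeLevel 𝒪 𝕋 P0 actP r (fun j => p ^ E j)
  /-- `cores` -/
  φα : LevelHom F G f₁
  /-- `coresD` -/
  φβ : LevelHom F G f₂
  /-- the good symbols -/
  ι₁ : Type
  /-- their primes -/
  pr : ι₁ → ℕ
  /-- the symbols -/
  sym : ι₁ → 𝕋
  /-- helper72's record, on the new level -/
  rc : RecordAt (newLevel hp hp𝒪 (fun j => ⟨E j, rfl⟩) φα φβ hf0) ι₁ pr sym DQ g
  /-- the good symbols act on the `p`-new base module through `t₀` -/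
  hbase : ∀ (s : ι₁) (y : LinearMap.ker (f₁.prod f₂)), newAct0 φα φβ (sym s) y = t₀ (pr s) • y

attribute [instance] NewRecordAt.instCommRing𝕋 NewRecordAt.instAlgebra𝕋

variable [IsLocalRing T₀] [IsNoetherianRing T₀] [IsAdicComplete (maximalIdeal T₀) T₀]
  [Algebra 𝒪 T₀] [IsScalarTower 𝒪 T₀ (LinearMap.ker (f₁.prod f₂))]
  (D₀ : DeformationRingData 𝒪 ρbar 𝒟₀) (DQ : DeformationRingData 𝒪 ρbar 𝒟Q)

/-- **R4-G NODE, layer 1, one Taylor–Wiles set**: the record on the new level gives the `p`-new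
module side; (SEMILIN) is `WireNew.nonempty_newSide_of_frob`. -/
theorem nonempty_newSide_of_record (h𝒟Q : IsDeformationCondition 𝒪 𝒟Q)
    (hlocT : IsLocalHom (algebraMap 𝒪 T₀))
    (hresT : Surjective (IsLocalRing.residue T₀ ∘ algebraMap 𝒪 T₀))
    (π : DQ.R →ₐ[𝒪] D₀.R) (hπ : IsLocalHom (π : DQ.R →+* D₀.R))
    (hπρ : (DQ.ρ.baseChangeAlong (π : DQ.R →+* D₀.R) hπ).IsEquiv D₀.ρ)
    (g : Fin r → (DQ.R)ˣ)
    (φ₀ : D₀.R →ₐ[𝒪] T₀) (hφ₀ : IsLocalHom (φ₀ : D₀.R →+* T₀)) (ρT₀ : GaloisRepAdic T₀)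
    (h₀ρ : (D₀.ρ.baseChangeAlong (φ₀ : D₀.R →+* T₀) hφ₀).IsEquiv ρT₀)
    (hfaith : ∀ u : T₀, (∀ y : LinearMap.ker (f₁.prod f₂), u • y = 0) → u = 0)
    (B₀ : Finset ℕ) (t₀ : ℕ → T₀)
    (h₀ : ∀ ℓ : ℕ, ℓ.Prime → ℓ ∉ B₀ → ∀ P : ValuationSubring Qb, P.LiesOverPrime ℓ →
      ∀ σ : GQ, P.IsFrobeniusAt σ ℓ →
        LinearMap.charpoly (ρT₀.ρ σ) = X ^ 2 - C (t₀ ℓ) * X + C ((ℓ : ℕ) : T₀))
    (Rc : NewRecordAt hp hp𝒪 E f₁ f₂ hf0 t₀ DQ g) :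
    Nonempty (@NewSide 𝒪 _ _ p r hp hp𝒪 E MF _ _ P0 _ _ f₁ f₂ hf0 D₀.R _ _
      (Module.compHom (LinearMap.ker (f₁.prod f₂)) (φ₀ : D₀.R →+* T₀))
      DQ.R _ _ (fun j => (g j : DQ.R)) π) := by
  have htQ : ∀ ℓ : ℕ, ℓ.Prime → ℓ ∉ Rc.rc.BQ → ∀ m,
      (newLevel hp hp𝒪 (fun j => ⟨E j, rfl⟩) Rc.φα Rc.φβ hf0).π (Rc.rc.a (Rc.rc.tQ ℓ) m)
        = t₀ ℓ • (newLevel hp hp𝒪 (fun j => ⟨E j, rfl⟩) Rc.φα Rc.φβ hf0).π m := by
    intro ℓ hℓ hℓB m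
    obtain ⟨s, hs, hsm⟩ := Rc.rc.hPI ℓ hℓ hℓB
    rw [hsm m, (newLevel hp hp𝒪 (fun j => ⟨E j, rfl⟩) Rc.φα Rc.φβ hf0).π_act, Rc.hbase, hs]
  exact GE8.RaiseP.WireNew.nonempty_newSide_of_frob D₀ DQ hp hp𝒪 E f₁ f₂ hf0
    Rc.F Rc.G Rc.φα Rc.φβ h𝒟Q hlocT hresT π hπ hπρ (fun j => (g j : DQ.R)) φ₀ hφ₀ ρT₀ h₀ρ
    Rc.rc.ψ Rc.rc.hψ Rc.rc.ρQ Rc.rc.hQρ Rc.rc.a Rc.rc.hUNIT hfaith
    {x : Rc.rc.TQ | ∃ ℓ : ℕ, ℓ.Prime ∧ ℓ ∉ Rc.rc.BQ ∧ x = Rc.rc.tQ ℓ} Rc.rc.hGEN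
    (fun x hx => by
      obtain ⟨ℓ, hℓ, hℓB, rfl⟩ := hx
      exact ⟨t₀ ℓ, htQ ℓ hℓ hℓB⟩)
    (B₀ ∪ Rc.rc.BQ) Rc.rc.tQ t₀
    (fun ℓ hℓ hℓB m => htQ ℓ hℓ (fun h => hℓB (Finset.mem_union_right _ h)) m)
    (fun ℓ hℓ hℓB Pℓ hPℓ σ hσ =>
      Rc.rc.hES ℓ hℓ (fun h => hℓB (Finset.mem_union_right _ h)) Pℓ hPℓ σ hσ)
    (fun ℓ hℓ hℓB Pℓ hPℓ σ hσ =>
      h₀ ℓ hℓ (fun h => hℓB (Finset.mem_union_left _ h)) Pℓ hPℓ σ hσ)

end Abs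

/-! ### all Taylor–Wiles data -/

section Stmt

variable {𝒪 : Type} [CommRing 𝒪] [IsDomain 𝒪] [IsDiscreteValuationRing 𝒪]
  [IsAdicComplete (maximalIdeal 𝒪) 𝒪]
  {ρbar : ResidualGaloisRep (ResidueField 𝒪)}

/-- **the record on the `p`-new level at every Taylor–Wiles set** — `BaseB.NewSideStmt` minus
(SEMILIN) (same binders, same labels). -/
def NewRecordStmt (p : ℕ) (hp : p.Prime) (hp𝒪 : (p : 𝒪) ∈ maximalIdeal 𝒪) (S : Finset ℕ)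
    (𝒟 : Finset ℕ → DefCondE 𝒪)
    (D0 : DeformationRingData 𝒪 ρbar (𝒟 ∅)) {T : Type} [CommRing T]
    (MF : Type) [AddCommGroup MF] [Module 𝒪 MF] (P0 : Type) [AddCommGroup P0] [Module 𝒪 P0]
    (f₁ f₂ : MF →ₗ[𝒪] P0) (hf0 : Surjective (f₁.prod f₂))
    [Module T (LinearMap.ker (f₁.prod f₂))] (t₀ : ℕ → T) : Prop :=
  ∀ (r n : ℕ) (qv : Fin r → ℕ), Injective qv →
    (∀ i, (qv i).Prime ∧ qv i ∉ S ∧ p ^ (n + 1) ∣ qv i - 1) →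
    ∀ (DQ : DeformationRingData 𝒪 ρbar (𝒟 (Finset.univ.image qv)))
      (P : Fin r → ValuationSubring Qb) (φ : Fin r → GQ) (α β : Fin r → ResidueField 𝒪)
      (τ : Fin r → GQ),
      (∀ j, (P j).LiesOverPrime (qv j)) → (∀ j, (P j).IsFrobeniusAt (φ j) (qv j)) →
      (∀ j, α j ≠ β j ∧
        LinearMap.charpoly (ρbar.ρ (φ j)) = (X - C (α j)) * (X - C (β j))) →
      (∀ j, IsTameGenerator (P j) p (τ j)) →
      ∀ (π : DQ.R →ₐ[𝒪] D0.R) (hπ : IsLocalHom (π : DQ.R →+* D0.R)) (g : Fin r → (DQ.R)ˣ),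
        Surjective π →
        RingHom.ker (π : DQ.R →+* D0.R) = Ideal.span (Set.range fun j => (g j : DQ.R) - 1) →
        (DQ.ρ.baseChangeAlong (π : DQ.R →+* D0.R) hπ).IsEquiv D0.ρ →
        (∀ j, LabelledAt DQ.ρ (ResidueField.map (algebraMap 𝒪 DQ.R)) (P j) (φ j) (τ j)
          (α j) (β j) (g j)) →
        ∃ E : Fin r → ℕ, (∀ j, ∃ m : ℕ, qv j = p ^ E j * m + 1 ∧ ¬ p ∣ m) ∧
          Nonempty (NewRecordAt hp hp𝒪 E f₁ f₂ hf0 t₀ DQ g)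

variable {T : Type} [CommRing T] [IsLocalRing T] [IsNoetherianRing T]
  [IsAdicComplete (maximalIdeal T) T] [Algebra 𝒪 T]

/-- **R4-G NODE, layer 1**: the record on the `p`-new level at every Taylor–Wiles set gives
`BaseB.NewSideStmt` (any family `𝒟` of deformation conditions). -/
theorem newSideStmt_of_recordStmt {p : ℕ} (hp : p.Prime) (hp𝒪 : (p : 𝒪) ∈ maximalIdeal 𝒪)
    (S : Finset ℕ) (𝒟 : Finset ℕ → DefCondE 𝒪)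
    (h𝒟 : ∀ Sig : Finset ℕ, IsDeformationCondition 𝒪 (𝒟 Sig))
    (D0 : DeformationRingData 𝒪 ρbar (𝒟 ∅)) (φ0 : D0.R →ₐ[𝒪] T)
    (hlocT : IsLocalHom (algebraMap 𝒪 T))
    (hresT : Surjective (IsLocalRing.residue T ∘ algebraMap 𝒪 T))
    (hφ0 : IsLocalHom (φ0 : D0.R →+* T)) (ρT : GaloisRepAdic T)
    (h0ρ : (D0.ρ.baseChangeAlong (φ0 : D0.R →+* T) hφ0).IsEquiv ρT)
    (B0 : Finset ℕ) (t0 : ℕ → T)
    (h0 : ∀ ℓ : ℕ, ℓ.Prime → ℓ ∉ B0 → ∀ Pℓ : ValuationSubring Qb, Pℓ.LiesOverPrime ℓ →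
      ∀ σ : GQ, Pℓ.IsFrobeniusAt σ ℓ →
        LinearMap.charpoly (ρT.ρ σ) = X ^ 2 - C (t0 ℓ) * X + C ((ℓ : ℕ) : T))
    {MF : Type} [AddCommGroup MF] [Module 𝒪 MF] {P0 : Type} [AddCommGroup P0] [Module 𝒪 P0]
    (f₁ f₂ : MF →ₗ[𝒪] P0) (hf0 : Surjective (f₁.prod f₂))
    [Module T (LinearMap.ker (f₁.prod f₂))] [IsScalarTower 𝒪 T (LinearMap.ker (f₁.prod f₂))]
    (hfaith : ∀ u : T, (∀ y : LinearMap.ker (f₁.prod f₂), u • y = 0) → u = 0)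
    (hrec : NewRecordStmt p hp hp𝒪 S 𝒟 D0 MF P0 f₁ f₂ hf0 t0) :
    NewSideStmt p hp hp𝒪 S 𝒟 D0 φ0 MF P0 f₁ f₂ hf0 := by
  intro r n qv hinj hqv DQ P φ α β τ hP hφ hαβ hτ π hπ g hπs hker hπρ hlab
  obtain ⟨E, hE, ⟨Rc⟩⟩ :=
    hrec r n qv hinj hqv DQ P φ α β τ hP hφ hαβ hτ π hπ g hπs hker hπρ hlab
  exact ⟨E, hE, nonempty_newSide_of_record hp hp𝒪 E f₁ f₂ hf0 D0 DQ (h𝒟 _) hlocT hresT π hπ hπρ g
    φ0 hφ0 ρT h0ρ hfaith B0 t0 h0 Rc⟩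

end Stmt

end GE8.RaiseP.NodeNew

end Fermat.Agent.GE8.P3B
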