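/-
GATE-E / RISK-4 PNEW-STAGE, leaf R4-G (g5) (helper55): **functoriality of GATE-B's level operations
for morphisms of levels** (`NewLevel.LevelHom`).

GATE-B's consumers of the twisted Hecke action ((1pt), (B5), `G2.a₁`) live on
`(Plug.tw … 0 g …).L1 = ChiLevelMulti.level1M (Plug.bigLevel … (0 + g))` (the coinvariants of the
EMPTY family of framed diamonds), moved to the `Q`-free base by `MapBase.mapBase` and to the orders
`fun j => p ^ E j` by `FreeLevelInst.castN`; the `p`-direction morphisms of levels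
(`P2/Main.exists_levelHom_primeData`, `G1/PairBase`) live on `Plug.bigLevel … j`.  This file moves
a `LevelHom` through the three operations:

* `level1Hom φ hN hN'` : `LevelHom (level1M B hN) (level1M B' hN') f0` from `φ : LevelHom B B' f0`
  (any number `s` of framed diamonds), `level1Hom_fmk` (rfl);
* `castNHom h φ` : `LevelHom (castN h F) (castN h G) f0`, same map (rfl);
* `mapBaseHom φ …` : `LevelHom (mapBase F actF' eF heF) (mapBase G actP' eG heG) f0'` for a
  commutative square `eG ∘ f0 = f0' ∘ eF`, same map (rfl);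
* `twistπHom` : re-pinning of the source and of the target;
* `fmkEquiv B hN` (`s = 0`) : `B.M ≃ₗ[O] (level1M B hN).M`, the class map, with `fmkEquiv_D`,
  `fmkEquiv_act`, `level1M_π_fmkEquiv`, `level1Hom_fmkEquiv`, and
  **`mem_ker_level1Hom_iff`** : `fmkEquiv B x ∈ ker (level1Hom φ).f ↔ x ∈ ker φ.f`.
-/
import Fermat.Agent.GE8.RaiseP.NewLevel
import Fermat.Agent.GE8.RaiseP.P2.Repin
import Fermat.Agent.GB.B3.ChiLevelMulti
import Fermat.Agent.GE8.P3B.GE6.Inst.FreeLevelInst
import Fermat.Agent.GE8.P3B.StepGen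
import Fermat.Agent.GE8.P3B.Ok3W

/- TWIN (helper6 B4 generator; conventions of helper24 / helper86) of `Fermat.Agent.GE8.RaiseP.Level1Hom` with `p ≠ 3` relaxed to `Ok3A Sy 𝔪 p` / `Ok3W p W` (RISK-5 fix (B), step B4); everything below lives in the wrapper namespace `Fermat.Agent.GE8.P3B`. -/
set_option linter.dupNamespace false
open Fermat Fermat.Agent Fermat.Agent.GB Fermat.Agent.GB.B3 Fermat.Agent.GB.B3.Chi Fermat.Agent.GB.B3.ChiLevelMulti Fermat.Agent.GB.B3.TWLevel Fermat.Agent.GE6 Fermat.Agent.GE6.Inst Fermat.Agent.GE6.Inst.MapBase Fermat.Agent.GE8 Fermat.Agent.GE8.RaiseP Fermat.Agent.GE8.RaiseP.NewLevel Fermat.Agent.GE8.RaiseP.P2 Fermat.Agent.GE8.RaiseP.P2.Repin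

namespace Fermat.Agent.GE8.P3B

set_option autoImplicit false
set_option linter.unusedSectionVars false
set_option linter.unusedVariables false

namespace GE8.RaiseP.Level1Hom

open Module Submodule
open GB.B3.TWLevel GB.B3.ChiLevelMulti GB.B3.Chi
open GE8.RaiseP.NewLevel GE8.RaiseP.P2.Repin
open GE6.Inst.MapBase GE6.Inst.FreeLevelInst

variable {O : Type} [CommRing O] [IsLocalRing O] {𝕋 : Type} [CommRing 𝕋] [Algebra O 𝕋]
  {M0 : Type} [AddCommGroup M0] [Module O M0] {act0 : 𝕋 →ₐ[O] Module.End O M0}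
  {P0 : Type} [AddCommGroup P0] [Module O P0] {actP0 : 𝕋 →ₐ[O] Module.End O P0}

/-! ### `level1M` -/

section Level1

variable {s k : ℕ} {N : Fin (s + k) → ℕ}
  {B : FreeLevel O 𝕋 M0 act0 (s + k) N} {B' : FreeLevel O 𝕋 P0 actP0 (s + k) N}
  {f0 : M0 →ₗ[O] P0}

theorem famRange_le_comap_hom (φ : LevelHom B B' f0) :
    famRange (frD B) (fun _ => (1 : O)) ≤
      (famRange (frD B') (fun _ => (1 : O))).comap φ.f := by
  refine iSup_le fun v => ?_
  intro y hy
  obtain ⟨x, rfl⟩ := mem_chiRange.1 hy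
  rw [Submodule.mem_comap, map_sub, map_smul, φ.f_D]
  exact chiRange_le_famRange (frD B') (fun _ => (1 : O)) v
    (sub_smul_mem_chiRange (frD B' v) (1 : O) (φ.f x))

/-- **functoriality of `level1M`**: the map induced on the coinvariants of the framed diamonds. -/
noncomputable def level1Hom (φ : LevelHom B B' f0) (hN : ∀ i, 0 < N i) :
    LevelHom (level1M B hN) (level1M B' hN) f0 where
  f := mapQ _ _ φ.f (famRange_le_comap_hom φ)
  f_D := fun i y => by
    obtain ⟨x, rfl⟩ := fmk_surjective (frD B) (fun _ => (1 : O)) y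
    show fmk (frD B') (fun _ => (1 : O)) (φ.f (twD B i x))
      = fmk (frD B') (fun _ => (1 : O)) (twD B' i (φ.f x))
    rw [φ.f_D]
  f_act := fun t y => by
    obtain ⟨x, rfl⟩ := fmk_surjective (frD B) (fun _ => (1 : O)) y
    show fmk (frD B') (fun _ => (1 : O)) (φ.f (B.act t x))
      = fmk (frD B') (fun _ => (1 : O)) (B'.act t (φ.f x))
    rw [φ.f_act]
  f_π := fun y => by
    obtain ⟨x, rfl⟩ := fmk_surjective (frD B) (fun _ => (1 : O)) y
    show B'.π (φ.f x) = f0 (B.π x)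
    exact φ.f_π x

theorem level1Hom_fmk (φ : LevelHom B B' f0) (hN : ∀ i, 0 < N i) (x : B.M) :
    (level1Hom φ hN).f (fmk (frD B) (fun _ => (1 : O)) x)
      = fmk (frD B') (fun _ => (1 : O)) (φ.f x) := rfl

end Level1

/-! ### `castN`, `mapBase`, `twistπ` -/

section Ops

variable {k : ℕ} {N N₂ : Fin k → ℕ}
  {F : FreeLevel O 𝕋 M0 act0 k N} {G : FreeLevel O 𝕋 P0 actP0 k N} {f0 : M0 →ₗ[O] P0}

/-- a morphism of levels after `castN` (same map). -/
def castNHom (h : N = N₂) (φ : LevelHom F G f0) : LevelHom (castN h F) (castN h G) f0 where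
  f := φ.f
  f_D := φ.f_D
  f_act := φ.f_act
  f_π := φ.f_π

@[simp] theorem castNHom_f (h : N = N₂) (φ : LevelHom F G f0) : (castNHom h φ).f = φ.f := rfl

variable {M0' : Type} [AddCommGroup M0'] [Module O M0'] {actF' : 𝕋 →ₐ[O] Module.End O M0'}
  {P0' : Type} [AddCommGroup P0'] [Module O P0'] {actP' : 𝕋 →ₐ[O] Module.End O P0'}

/-- a morphism of levels after `mapBase` on both sides, over a commutative square of base maps
(same map). -/
def mapBaseHom (φ : LevelHom F G f0) (eF : M0 ≃ₗ[O] M0')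
    (heF : ∀ t y, eF (act0 t y) = actF' t (eF y)) (eG : P0 ≃ₗ[O] P0')
    (heG : ∀ t y, eG (actP0 t y) = actP' t (eG y)) (f0' : M0' →ₗ[O] P0')
    (hsq : ∀ y, eG (f0 y) = f0' (eF y)) :
    LevelHom (mapBase F actF' eF heF) (mapBase G actP' eG heG) f0' where
  f := φ.f
  f_D := φ.f_D
  f_act := φ.f_act
  f_π := fun x => (congrArg eG (φ.f_π x)).trans (hsq (F.π x))

@[simp] theorem mapBaseHom_f (φ : LevelHom F G f0) (eF : M0 ≃ₗ[O] M0')
    (heF : ∀ t y, eF (act0 t y) = actF' t (eF y)) (eG : P0 ≃ₗ[O] P0')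
    (heG : ∀ t y, eG (actP0 t y) = actP' t (eG y)) (f0' : M0' →ₗ[O] P0')
    (hsq : ∀ y, eG (f0 y) = f0' (eF y)) :
    (mapBaseHom φ eF heF eG heG f0' hsq).f = φ.f := rfl

/-- undo a re-pinning of the source: a morphism out of `twistπ F u hu` over `f0` is a morphism out
of `F` over `f0 ∘ u` (same map). -/
def untwistHom (u : M0 ≃ₗ[O] M0) (hu : ∀ t x, u (act0 t x) = act0 t (u x))
    (φ : LevelHom (twistπ F u hu) G f0) : LevelHom F G (f0 ∘ₗ u.toLinearMap) where
  f := φ.f
  f_D := φ.f_D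
  f_act := φ.f_act
  f_π := φ.f_π

@[simp] theorem untwistHom_f (u : M0 ≃ₗ[O] M0) (hu : ∀ t x, u (act0 t x) = act0 t (u x))
    (φ : LevelHom (twistπ F u hu) G f0) : (untwistHom u hu φ).f = φ.f := rfl

end Ops

/-! ### no framed diamond: the class map is an isomorphism -/

section Zero

variable {k : ℕ} {N : Fin (0 + k) → ℕ}
  (B : FreeLevel O 𝕋 M0 act0 (0 + k) N) {B' : FreeLevel O 𝕋 P0 actP0 (0 + k) N}
  {f0 : M0 →ₗ[O] P0}

theorem famRange_eq_bot : famRange (frD B) (fun _ : Fin 0 => (1 : O)) = ⊥ := by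
  rw [famRange]
  exact iSup_of_empty _

/-- the class map `B.M → (level1M B hN).M`. -/
noncomputable def fmkL (hN : ∀ i, 0 < N i) : B.M →ₗ[O] (level1M B hN).M :=
  (famRange (frD B) (fun _ : Fin 0 => (1 : O))).mkQ

theorem fmkL_bijective (hN : ∀ i, 0 < N i) : Function.Bijective (fmkL B hN) := by
  constructor
  · intro x y hxy
    have h : x - y ∈ famRange (frD B) (fun _ : Fin 0 => (1 : O)) :=
      (Submodule.Quotient.eq _).1 hxy
    rw [famRange_eq_bot, Submodule.mem_bot, sub_eq_zero] at h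
    exact h
  · exact fmk_surjective (frD B) (fun _ : Fin 0 => (1 : O))

/-- **`s = 0`: the class map `B.M → (level1M B hN).M` is an isomorphism.** -/
noncomputable def fmkEquiv (hN : ∀ i, 0 < N i) : B.M ≃ₗ[O] (level1M B hN).M :=
  LinearEquiv.ofBijective (fmkL B hN) (fmkL_bijective B hN)

theorem fmkEquiv_apply (hN : ∀ i, 0 < N i) (x : B.M) :
    fmkEquiv B hN x = fmk (frD B) (fun _ : Fin 0 => (1 : O)) x := rfl

theorem fmkEquiv_D (hN : ∀ i, 0 < N i) (i : Fin k) (x : B.M) :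
    (level1M B hN).D i (fmkEquiv B hN x) = fmkEquiv B hN (B.D (Fin.natAdd 0 i) x) := by
  rw [fmkEquiv_apply, fmkEquiv_apply]
  rfl

theorem fmkEquiv_act (hN : ∀ i, 0 < N i) (t : 𝕋) (x : B.M) :
    (level1M B hN).act t (fmkEquiv B hN x) = fmkEquiv B hN (B.act t x) := by
  rw [fmkEquiv_apply, fmkEquiv_apply]
  rfl

theorem level1M_π_fmkEquiv (hN : ∀ i, 0 < N i) (x : B.M) :
    (level1M B hN).π (fmkEquiv B hN x) = B.π x := by
  rw [fmkEquiv_apply]
  rfl

variable {B}

theorem level1Hom_fmkEquiv (φ : LevelHom B B' f0) (hN : ∀ i, 0 < N i) (x : B.M) :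
    (level1Hom φ hN).f (fmkEquiv B hN x) = fmkEquiv B' hN (φ.f x) := by
  rw [fmkEquiv_apply, fmkEquiv_apply]
  rfl

/-- **the kernel of the induced morphism is the image of the kernel** (`s = 0`). -/
theorem mem_ker_level1Hom_iff (φ : LevelHom B B' f0) (hN : ∀ i, 0 < N i) (x : B.M) :
    fmkEquiv B hN x ∈ LinearMap.ker (level1Hom φ hN).f ↔ x ∈ LinearMap.ker φ.f := by
  rw [LinearMap.mem_ker, LinearMap.mem_ker, level1Hom_fmkEquiv]
  exact (fmkEquiv B' hN).map_eq_zero_iff

end Zero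

end GE8.RaiseP.Level1Hom

end Fermat.Agent.GE8.P3B
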