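/-
GATE-E / RISK-4 PNEW-STAGE, leaf R4-G (g2) (helper32; claims row GE8-PNEW-R4G-G2):
**`ψ_Q : R^SO_Q ↠ T^new_Q`, the ring-to-Hecke map of the `p`-NEW part at one Taylor–Wiles set.**

`T^new_Q := ImageRing.TQ 𝒪 θ (restrictTw twP K hK)` is the image of `𝒪 ⊗ heckeAlgebra (N₀ p) 2 S` in
the endomorphisms of the `p`-new kernel `K = ker (cores, coresD)` of the big level (helper80's
`NewLevel.kerLevel`, helper55's `BaseB.newLevel`, helper15's `MainPlug.exists_kerData`).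

* `twO_mem_of_stable`, `coe_twO_restrictTw` : the `𝒪`-linear extension of a restricted action is the
  restriction of the `𝒪`-linear extension;
* **`locHyp_restrictTw`** : (LOC) passes to ANY stable submodule of a finite free module (the
  inverse of a bijective `twO a` is a polynomial in it, `ImageRing.exists_aeval_mul_eq_one`);
* **`exists_psi_TQ_condSO_new`** : generic `(𝒪, ρbar, M, tw)`; `ψ : DQ.R ↠ TQ 𝒪 θ tw` for the ENGINE
  problem `DQ : DeformationRingData 𝒪 ρbar (condSO 𝒪 p Smin Q)` at a level `N' * p`, `p ∥ N' p`,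
  from (ANN) on `LamNew` — the strict-ordinary twin of `GE6/Inst/PsiCondFL.exists_psi_TQ_condFL`,
  = `Deside/G3.exists_psi_TQ_strict_noSide` at `Su := ∅` with helper11's
  `Deside/Final.galPkgSONoSideNew` plugged: NO side condition `p = 3 → 2 ∣ N' p`;
* **`exists_psi_ker_new`** : in the variable context of `NewAnn.hAnn_ker_new` (= of helper15's
  `MainPlug.exists_kerData`): for every `twP`-stable submodule `Ksub` of `Plug.bigLevel Sy 𝔪 H h j`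
  whose classes are killed by the two transfers, `ψ : DQ.R ↠ TQ O θA (restrictTw twP Ksub hK)` with
  the five conjuncts of `GE6/Inst/PsiPkgMin.exists_psi_pkg_min`.
-/
import Fermat.Agent.GE8.P3B.GE8.RaiseP.NewAnn
import Fermat.Agent.GE8.Deside.G3
import Fermat.Agent.GE8.Deside.Final
import Fermat.Agent.GE6.Inst.PsiCondFL
import Fermat.Agent.GE8.P3B.StepGen
import Fermat.Agent.GE8.P3B.Ok3W

/- TWIN (helper6 B4 generator; conventions of helper24 / helper86) of `Fermat.Agent.GE8.RaiseP.PsiNew` with `p ≠ 3` relaxed to `Ok3A Sy 𝔪 p` / `Ok3W p W` (RISK-5 fix (B), step B4); everything below lives in the wrapper namespace `Fermat.Agent.GE8.P3B`. -/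
set_option linter.dupNamespace false
open Fermat Fermat.Agent Fermat.Agent.GB Fermat.Agent.GB.B10 Fermat.Agent.GB.B10.KumLevelHecke Fermat.Agent.GB.B10.L Fermat.Agent.GB.B10.L.StrictQNew Fermat.Agent.GB.B10.L.ThetaNew Fermat.Agent.GB.B3 Fermat.Agent.GB.B3.ChiLevelMulti Fermat.Agent.GB.B3.EisGamma0 Fermat.Agent.GB.B3.GamH Fermat.Agent.GB.B3.HeckeActH Fermat.Agent.GB.B3.RealLevel Fermat.Agent.GB.B3.TWChars Fermat.Agent.GB.B3.TWLevel Fermat.Agent.GB.B4 Fermat.Agent.GB.B4.Datum Fermat.Agent.GB.B4.Datum.ImageRing Fermat.Agent.GB.B4.Twist Fermat.Agent.GB.B4.Twist.Asm Fermat.Agent.GB.B4.Twist.Chain Fermat.Agent.GB.B4.Twist.ChainD Fermat.Agent.GB.B4.Twist.Coeff Fermat.Agent.GB.B4.Twist.DPlug Fermat.Agent.GB.B7 Fermat.Agent.GB.B7.UqSq Fermat.Agent.GB.Def Fermat.Agent.GB.Def.FramedNodes Fermat.Agent.GE Fermat.Agent.GE.Graph Fermat.Agent.GE6 Fermat.Agent.GE6.Inst Fermat.Agent.GE6.Inst.PsiCondFL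 Fermat.Agent.GE8 Fermat.Agent.GJ Fermat.Agent.GJ.J2 Fermat.Agent.GJ.J2.Lat Fermat.Agent.GJ.J2.LatAct Fermat.Agent.GJ.J2.ZStruct Fermat.Agent.GK Fermat.Agent.GK.AL Fermat.Agent.GM Fermat.Agent.GM.B Fermat.Agent.S16_helper49

namespace Fermat.Agent.GE8.P3B

set_option autoImplicit false
set_option linter.unusedSectionVars false
set_option linter.unusedVariables false
set_option linter.style.haveILetI false

noncomputable section

open scoped MatrixGroups TensorProduct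
open CongruenceSubgroup CuspForm IsLocalRing Polynomial GaloisRep
open GB.B4.Datum.ImageRing GB.B10.L.ThetaNew
open GE8.RaiseP.NewAnn

namespace GE8.RaiseP.PsiNew

/-- `ℚ̄`. -/
local notation "Qb" => AlgebraicClosure ℚ
/-- `G_ℚ`. -/
local notation "GQ" => (AlgebraicClosure ℚ ≃ₐ[ℚ] AlgebraicClosure ℚ)

/-! ### the `𝒪`-linear extension of a restricted action -/

section Restrict

variable {𝒪 : Type} [CommRing 𝒪] [IsLocalRing 𝒪] {A : Type} [CommRing A]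
  {M : Type} [AddCommGroup M] [Module 𝒪 M]

/-- a submodule stable under `tw t`, every `t : A`, is stable under `twO 𝒪 tw a`, every
`a : 𝒪 ⊗ A`. -/
theorem twO_mem_of_stable (tw : A →+* Module.End 𝒪 M) (K : Submodule 𝒪 M)
    (hK : ∀ (t : A), ∀ x ∈ K, tw t x ∈ K) (a : 𝒪 ⊗[ℤ] A) :
    ∀ x ∈ K, twO 𝒪 tw a x ∈ K := by
  induction a using TensorProduct.induction_on with
  | zero =>
    intro x _
    rw [map_zero]
    exact K.zero_mem
  | tmul c t =>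
    intro x hx
    rw [twO_tmul]
    exact K.smul_mem c (hK t x hx)
  | add a b ha hb =>
    intro x hx
    rw [map_add]
    exact K.add_mem (ha x hx) (hb x hx)

/-- **the `𝒪`-linear extension of the restricted action is the restriction of the `𝒪`-linear
extension.** -/
theorem coe_twO_restrictTw (tw : A →+* Module.End 𝒪 M) (K : Submodule 𝒪 M)
    (hK : ∀ (t : A), ∀ x ∈ K, tw t x ∈ K) (a : 𝒪 ⊗[ℤ] A) (x : K) :
    ((twO 𝒪 (restrictTw tw K hK) a x : K) : M) = twO 𝒪 tw a (x : M) := by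
  induction a using TensorProduct.induction_on with
  | zero =>
    rw [map_zero, map_zero]
    rfl
  | tmul c t =>
    rw [twO_tmul, twO_tmul]
    rfl
  | add a b ha hb =>
    rw [map_add, map_add, LinearMap.add_apply, LinearMap.add_apply, Submodule.coe_add, ha, hb]

variable [Module.Finite 𝒪 M] [Module.Free 𝒪 M]

/-- **(LOC) passes to every stable submodule**: the inverse of a bijective `twO 𝒪 tw a` on the
finite free module `M` is `twO 𝒪 tw` of a polynomial in `a`, hence preserves `K`. -/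
theorem locHyp_restrictTw {θ : A →+* ResidueField 𝒪} {tw : A →+* Module.End 𝒪 M}
    (hloc : LocHyp 𝒪 θ tw) (K : Submodule 𝒪 M) (hK : ∀ (t : A), ∀ x ∈ K, tw t x ∈ K) :
    LocHyp 𝒪 θ (restrictTw tw K hK) := by
  intro a ha
  obtain ⟨P, hP⟩ := exists_aeval_mul_eq_one (twO 𝒪 tw a) (hloc a ha)
  have hab : twO 𝒪 tw (a * aeval a P) = 1 := by
    rw [map_mul, ← aeval_algHom_apply]
    exact hP
  have h1 : ∀ x : K, twO 𝒪 (restrictTw tw K hK) (a * aeval a P) x = x := fun x =>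
    Subtype.ext (by rw [coe_twO_restrictTw, hab]; rfl)
  refine ⟨fun x y hxy => ?_, fun y => ⟨twO 𝒪 (restrictTw tw K hK) (aeval a P) y, ?_⟩⟩
  · have hx := h1 x
    have hy := h1 y
    rw [mul_comm, map_mul, Module.End.mul_apply] at hx hy
    rw [← hx, ← hy, hxy]
  · have hy := h1 y
    rw [map_mul, Module.End.mul_apply] at hy
    exact hy

end Restrict

/-! ### `ψ_Q` for the engine problem `condSO`, generic carrier -/

section Generic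

open GK.AL GB.Def.FramedNodes GB.B10.KumLevelHecke
  GB.B10.L.StrictQNew GE.Graph GE6.Inst.PsiCondFL

variable {N' p : ℕ} [NeZero N'] [Fact p.Prime] {S : Finset ℕ}
  {𝒪 : Type} [CommRing 𝒪] [IsDomain 𝒪] [IsDiscreteValuationRing 𝒪]
  [IsAdicComplete (maximalIdeal 𝒪) 𝒪] [Finite (ResidueField 𝒪)] [CharZero 𝒪]
  {θ : heckeAlgebra (N' * p) 2 (↑S : Set ℕ) →+* ResidueField 𝒪}
  {M : Type} [AddCommGroup M] [Module 𝒪 M] [Module.Finite 𝒪 M] [Module.Free 𝒪 M]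
  [Nontrivial M] {tw : heckeAlgebra (N' * p) 2 (↑S : Set ℕ) →+* Module.End 𝒪 M}

/-- **`ψ_Q : R^SO_Q ↠ T_Q` for the engine problem `condSO 𝒪 p Smin Q`, over the image ring
`ImageRing.TQ 𝒪 θ tw`** of an `End`-valued Hecke action at a level `N' * p` with `p ∥ N' p`, from
(ANN) on the `p`-new lattice.  No side condition (`Deside/Final.galPkgSONoSideNew`). -/
theorem exists_psi_TQ_condSO_new [hloc : Fact (LocHyp 𝒪 θ tw)]
    (hp2 : p ≠ 2) (hp𝒪 : (p : 𝒪) ∈ maximalIdeal 𝒪)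
    (h : ExactDvd p (N' * p)) (hpS : p ∈ S)
    (hNS : ∀ q : ℕ, q.Prime → q ∣ N' * p → q ∈ S)
    (ρbar : ResidualGaloisRep (ResidueField 𝒪)) (habs : ρbar.IsAbsolutelyIrreducible)
    (hfrob : ∀ (ℓ : ℕ) (hℓ : ℓ.Prime) (hℓN : ¬ ℓ ∣ N' * p) (hℓS : ℓ ∉ (↑S : Set ℕ)),
      ∀ P : ValuationSubring Qb, P.LiesOverPrime ℓ → ∀ σ : GQ, P.IsFrobeniusAt σ ℓ →
        ∃ d₀ : ResidueField 𝒪, LinearMap.charpoly (ρbar.ρ σ) =
          X ^ 2 - C (θ (heckeAlgebra.T hℓ hℓN hℓS)) * X + C d₀)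
    (hordbar : (GaloisRepAdic.ofResidualGaloisRep ρbar).IsOrdinaryAt p)
    (hAnn : ∀ t₀ : 𝒪 ⊗[ℤ] heckeAlgebra (N' * p) 2 (↑S : Set ℕ),
      (∀ (a : 𝒪), ∀ x ∈ (LamNew (not_dvd_of_exactDvd h) :
          AddSubgroup (levelData p (N' * p) hpS hNS).Λ),
        (levelData p (N' * p) hpS hNS).heckeTensor 𝒪 t₀ (a ⊗ₜ[ℤ] x) = 0) →
          ∀ m : M, twO 𝒪 tw t₀ m = 0)
    (Smin Q Sun : Finset ℕ) (hpT : p ∈ Smin ∪ Q)
    (hNT : ∀ q : ℕ, q.Prime → q ∣ N' * p → q ∈ Smin ∪ Q)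
    (hSmin : ∀ q ∈ Smin, q.Prime → q ≠ p → q ∣ N' * p ∧ ¬ q ^ 2 ∣ N' * p)
    (hSun : ∀ q ∈ Sun, q.Prime → q ≠ p → q ∣ N' * p ∧ ¬ q ^ 2 ∣ N' * p)
    (DQ : DeformationRingData 𝒪 ρbar (condSO 𝒪 p Smin Q)) :
    ∃ (ψ : DQ.R →ₐ[𝒪] TQ 𝒪 θ tw) (hψ : IsLocalHom (ψ : DQ.R →+* TQ 𝒪 θ tw))
      (ρQ : GaloisRepAdic (TQ 𝒪 θ tw)),
      Function.Surjective ψ ∧
      (DQ.ρ.baseChangeAlong (ψ : DQ.R →+* TQ 𝒪 θ tw) hψ).IsEquiv ρQ ∧
      (∀ (ℓ : ℕ) (hℓ : ℓ.Prime) (hℓN : ¬ ℓ ∣ N' * p) (hℓS : ℓ ∉ (↑S : Set ℕ))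
        (A : ValuationSubring Qb), A.LiesOverPrime ℓ → ∀ σ : GQ, A.IsFrobeniusAt σ ℓ →
          LinearMap.charpoly (ρQ.ρ σ) =
            X ^ 2 - C (chi 𝒪 θ tw (heckeAlgebra.T hℓ hℓN hℓS)) * X
              + C ((ℓ : TQ 𝒪 θ tw))) ∧
      ρQ.DetIsCyclotomic p ∧
      (∀ q ∈ Sun, q.Prime → q ≠ p → ρQ.IsUnipotentOnInertiaAt q) ∧
      ρQ.residual.IsEquiv
        (ρbar.baseChangeAlong (ResidueField.map (algebraMap 𝒪 (TQ 𝒪 θ tw)))) := by
  have hpT' : p ∈ Smin ∪ ∅ ∪ Q := by rw [Finset.union_empty]; exact hpT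
  have hNT' : ∀ q : ℕ, q.Prime → q ∣ N' * p → q ∈ Smin ∪ ∅ ∪ Q := fun q hq hqN => by
    rw [Finset.union_empty]; exact hNT q hq hqN
  obtain ⟨ψ, hψ, ρQ, h1, h2, h3, h4, h5, h6⟩ :=
    GE8.Deside.G3.exists_psi_TQ_strict_noSide
      GE8.Deside.Final.galPkgSONoSideNew (θ := θ) (tw := tw) hp2 hp𝒪 h hpS hNS ρbar
      habs hfrob hordbar hAnn Smin ∅ Q Sun hpT' hNT' hSmin hSun (toFramedSO DQ)
  exact ⟨ψ, hψ, ρQ, h1, h2, h3, h4, h5, h6⟩

end Generic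

/-! ### `ψ_Q` on the `p`-new kernel of the big level of `GB/B3/Plug` -/

section Plug

open Matrix Matrix.SpecialLinearGroup ModularCurve.Period
open S16_helper49 GM.B
open GB.B3 GB.B3.EisGamma0 GB.B3.GamH
open GJ.J2.ZStruct GJ.J2.Lat GJ.J2.LatAct
open GB.B4.Twist GB.B4.Twist.Chain GB.B4.Twist.ChainD
open GB.B4.Twist.Asm GB.B4.Twist.Coeff GB.B4.Twist.TwR
open GB.B4.Twist.DPlug
open GB.B3.TWLevel GB.B3.RealLevel
  GB.B3.HeckeActH GB.B3.TWChars GB.B3.FinalTW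
  GB.B3.Tower GB.B3.StepInst GB.B3.LocTransport
  GB.B3.ChiLevelMulti GB.B3.Final
open GB.B7.UqSq
open GK.AL GE.Graph

/-- a Taylor–Wiles level is a finite `O`-module (`FreeLevel.basis`). -/
instance finite_freeLevel {O : Type} [CommRing O] {𝕋 : Type} [CommRing 𝕋] [Algebra O 𝕋]
    {M0 : Type} [AddCommGroup M0] [Module O M0] {act0 : 𝕋 →ₐ[O] Module.End O M0}
    {k : ℕ} {N : Fin k → ℕ} (F : FreeLevel O 𝕋 M0 act0 k N) : Module.Finite O F.M :=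
  Module.Finite.of_basis F.basis

/-- a Taylor–Wiles level is a free `O`-module (`FreeLevel.basis`). -/
instance free_freeLevel {O : Type} [CommRing O] {𝕋 : Type} [CommRing 𝕋] [Algebra O 𝕋]
    {M0 : Type} [AddCommGroup M0] [Module O M0] {act0 : 𝕋 →ₐ[O] Module.End O M0}
    {k : ℕ} {N : Fin k → ℕ} (F : FreeLevel O 𝕋 M0 act0 k N) : Module.Free O F.M :=
  Module.Free.of_basis F.basis

/-- (LOC) for the restricted action, as an instance. -/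
instance fact_locHyp_restrictTw {𝒪 : Type} [CommRing 𝒪] [IsLocalRing 𝒪] {A : Type} [CommRing A]
    {M : Type} [AddCommGroup M] [Module 𝒪 M] [Module.Finite 𝒪 M] [Module.Free 𝒪 M]
    {θ : A →+* ResidueField 𝒪} {tw : A →+* Module.End 𝒪 M} [hloc : Fact (LocHyp 𝒪 θ tw)]
    (K : Submodule 𝒪 M) (hK : ∀ (t : A), ∀ x ∈ K, tw t x ∈ K) :
    Fact (LocHyp 𝒪 θ (restrictTw tw K hK)) :=
  ⟨locHyp_restrictTw hloc.out K hK⟩

/-- `p ∥ N₀ * p` when `p ∤ N₀`. -/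
theorem exactDvd_mul_self {N₀ p : ℕ} (hp : p.Prime) (hpN₀ : ¬ p ∣ N₀) : ExactDvd p (N₀ * p) :=
  ⟨hp, Dvd.intro_left N₀ rfl, fun hsq => hpN₀ (by
    rw [pow_two] at hsq
    exact Nat.dvd_of_mul_dvd_mul_right hp.pos hsq)⟩

/-- local instance (Prop-valued class) -/
local instance factPrimeOffPN {S : Set ℕ} (l : PrimesOff S) : Fact (l.1 : ℕ).Prime := ⟨l.1.2⟩

variable {Nl p : ℕ} [NeZero Nl] [hpF : Fact p.Prime] [NeZero (Nl * p)] {Kk : ℕ}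
  {r e N' N'₀ : ℕ → ℕ}
variable (Sy : Symbols (Nl * p)) (hpNl : ¬ p ∣ Nl)
variable {O : Type} [CommRing O] [IsDomain O] [IsDiscreteValuationRing O]
  [IsAdicComplete (IsLocalRing.maximalIdeal O) O] [Module.IsTorsionFree ℤ O] [CharZero O]
  [Finite (ResidueField O)]
variable (𝔪 : Ideal (Sy.𝕋 O)) [𝔪.IsMaximal]
variable (H : PrimeData (Nl * p) p Kk r e N') (H₀ : PrimeData Nl p Kk r e N'₀)
  {ϖ : O} {s0 : Sy.ι₁} (h : Plug.Hyp Sy 𝔪 p ϖ s0)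
variable (j : ℕ) (hj : j ≤ Kk) (hp2 : p ≠ 2)
  {N₀ : ℕ} [NeZero N₀] [NeZero (N₀ * p)] (hN₀ : N₀ * p = Nl * p * ∏ i : Fin j, r i)
  (hpN₀ : ¬ p ∣ N₀)
  (S : Finset ℕ) (hpS : p ∈ S) (hNS : ∀ q : ℕ, q.Prime → q ∣ N₀ * p → q ∈ S)
  (dℓ : PrimesOff (↑S : Set ℕ) → Gamma0 (Nl * p))
  (hdℓ : ∀ (l : PrimesOff (↑S : Set ℕ)) (u : (ZMod (Nl * p))ˣ),
    (u : ZMod (Nl * p)) = ((l.1 : ℕ) : ZMod (Nl * p)) →
    chi (Theta (Δs p e) H.psi j) (dℓ l) ^ 2 * Theta (Δs p e) H.psi j u = 1)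
  (tw : ↥(heckeAlgebra (N₀ * p) 2 (↑S : Set ℕ)) →+*
    Module.End O ↥(parabolicHoms O (GammaH (Theta (Δs p e) H.psi j)) O))
  (htw : ∀ (l : PrimesOff (↑S : Set ℕ))
      (v : ↥(parabolicHoms O (GammaH (Theta (Δs p e) H.psi j)) O)),
    ((tw (formsGenS (N₀ * p) (↑S : Set ℕ) l) v :
        ↥(parabolicHoms O (GammaH (Theta (Δs p e) H.psi j)) O)) :
        Additive (GammaH (Theta (Δs p e) H.psi j)) →+ O)
      = diaH (Theta (Δs p e) H.psi j) O (dℓ l) (GamH.TH (Theta (Δs p e) H.psi j) O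
          (not_dvd_level (↑S : Set ℕ) (GB.B10.L.Ann.hS_of_hNS S hNS)
            (Dvd.intro _ hN₀.symm) l)
          (v : Additive (GammaH (Theta (Δs p e) H.psi j)) →+ O)))
  (hpar : ∀ x : (Plug.bigLevel Sy 𝔪 H h j).M,
    (Plug.bigReal Sy 𝔪 H h j).ι x ∈ parabolicHoms O (GammaH (Theta (Δs p e) H.psi j)) O)
  (twP : ↥(heckeAlgebra (N₀ * p) 2 (↑S : Set ℕ)) →+*
    Module.End O (Plug.bigLevel Sy 𝔪 H h j).M)
  (hιP : ∀ (t : ↥(heckeAlgebra (N₀ * p) 2 (↑S : Set ℕ))) (m : (Plug.bigLevel Sy 𝔪 H h j).M),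
    (Plug.bigReal Sy 𝔪 H h j).ι (twP t m) =
      ((tw t ⟨(Plug.bigReal Sy 𝔪 H h j).ι m, hpar m⟩ :
        ↥(parabolicHoms O (GammaH (Theta (Δs p e) H.psi j)) O)) :
        Additive (GammaH (Theta (Δs p e) H.psi j)) →+ O))
  {θA : ↥(heckeAlgebra (N₀ * p) 2 (↑S : Set ℕ)) →+* ResidueField O}

include hj hp2 hpN₀ hpS hdℓ htw hιP in
/-- **R4-G (g2): `ψ_Q : R^SO_Q ↠ T^new_Q` on the `p`-new kernel of the big level.**
`Ksub`, `hK`, `hKnew` are the binders of `NewAnn.hAnn_ker_new` VERBATIM (conjuncts of helper15's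
`MainPlug.exists_kerData` at `Ksub := ker (LevelHom.prod G G φα φβ).f`); (LOC) on the big level
(`TwRestrictPlug.locHyp_twP`) restricts by `locHyp_restrictTw`; `[Nontrivial Ksub]` is
`0 < (newLevel …).d`. -/
theorem exists_psi_ker_new [hlocP : Fact (LocHyp O θA twP)]
    (hpO : (p : O) ∈ maximalIdeal O)
    (ρbar : ResidualGaloisRep (ResidueField O)) (habs : ρbar.IsAbsolutelyIrreducible)
    (hfrob : ∀ (ℓ : ℕ) (hℓ : ℓ.Prime) (hℓN : ¬ ℓ ∣ N₀ * p) (hℓS : ℓ ∉ (↑S : Set ℕ)),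
      ∀ P : ValuationSubring Qb, P.LiesOverPrime ℓ → ∀ σ : GQ, P.IsFrobeniusAt σ ℓ →
        ∃ d₀ : ResidueField O, LinearMap.charpoly (ρbar.ρ σ) =
          X ^ 2 - C (θA (heckeAlgebra.T hℓ hℓN hℓS)) * X + C d₀)
    (hordbar : (GaloisRepAdic.ofResidualGaloisRep ρbar).IsOrdinaryAt p)
    (Ksub : Submodule O (Plug.bigLevel Sy 𝔪 H h j).M) [Nontrivial Ksub]
    (hK : ∀ (t : ↥(heckeAlgebra (N₀ * p) 2 (↑S : Set ℕ))), ∀ x ∈ Ksub, twP t x ∈ Ksub)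
    (hKnew : ∀ x ∈ Ksub,
      coresq (Theta (Δs p e) H₀.psi j) hpNl O
          (castθ (Theta_eq_infl H H₀ j) O ((Plug.bigReal Sy 𝔪 H h j).ι x)) = 0 ∧
        coresDq (Theta (Δs p e) H₀.psi j) hpNl O
          (castθ (Theta_eq_infl H H₀ j) O ((Plug.bigReal Sy 𝔪 H h j).ι x)) = 0)
    (Smin Q Sun : Finset ℕ) (hpT : p ∈ Smin ∪ Q)
    (hNT : ∀ q : ℕ, q.Prime → q ∣ N₀ * p → q ∈ Smin ∪ Q)
    (hSmin : ∀ q ∈ Smin, q.Prime → q ≠ p → q ∣ N₀ * p ∧ ¬ q ^ 2 ∣ N₀ * p)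
    (hSun : ∀ q ∈ Sun, q.Prime → q ≠ p → q ∣ N₀ * p ∧ ¬ q ^ 2 ∣ N₀ * p)
    (DQ : DeformationRingData O ρbar (condSO O p Smin Q)) :
    ∃ (ψ : DQ.R →ₐ[O] TQ O θA (restrictTw twP Ksub hK))
      (hψ : IsLocalHom (ψ : DQ.R →+* TQ O θA (restrictTw twP Ksub hK)))
      (ρQ : GaloisRepAdic (TQ O θA (restrictTw twP Ksub hK))),
      Function.Surjective ψ ∧
      (DQ.ρ.baseChangeAlong (ψ : DQ.R →+* TQ O θA (restrictTw twP Ksub hK)) hψ).IsEquiv ρQ ∧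
      (∀ (ℓ : ℕ) (hℓ : ℓ.Prime) (hℓN : ¬ ℓ ∣ N₀ * p) (hℓS : ℓ ∉ (↑S : Set ℕ))
        (A : ValuationSubring Qb), A.LiesOverPrime ℓ → ∀ σ : GQ, A.IsFrobeniusAt σ ℓ →
          LinearMap.charpoly (ρQ.ρ σ) =
            X ^ 2 - C (chi O θA (restrictTw twP Ksub hK) (heckeAlgebra.T hℓ hℓN hℓS)) * X
              + C ((ℓ : TQ O θA (restrictTw twP Ksub hK)))) ∧
      ρQ.DetIsCyclotomic p ∧
      (∀ q ∈ Sun, q.Prime → q ≠ p → ρQ.IsUnipotentOnInertiaAt q) ∧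
      ρQ.residual.IsEquiv
        (ρbar.baseChangeAlong
          (ResidueField.map (algebraMap O (TQ O θA (restrictTw twP Ksub hK))))) :=
  exists_psi_TQ_condSO_new (θ := θA) (tw := restrictTw twP Ksub hK) hp2 hpO
    (exactDvd_mul_self hpF.out hpN₀) hpS hNS ρbar habs hfrob hordbar
    (hAnn_ker_new Sy hpNl 𝔪 H H₀ h j hj hp2 hN₀ hpN₀ S hpS hNS dℓ hdℓ tw htw hpar twP hιP
      Ksub hK hKnew)
    Smin Q Sun hpT hNT hSmin hSun DQ

end Plug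

end GE8.RaiseP.PsiNew

end

end Fermat.Agent.GE8.P3B
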