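/-
GATE-E / RISK-4 PNEW-STAGE, leaf R4-G (g2), the bridge to `BaseB` (helper32; claims row
GE8-PNEW-R4G-G2): **`ψ_Q : R^SO_Q ↠ T^new_Q` for helper55's `BaseB.newTw`.**

`BaseB.restrictEnd` is `NewAnn.restrictTw` and `BaseB.newTw … = restrictTw twP (ker (φα, φβ)) _`
(`rfl`), so (LOC) and `ψ_Q` of `GE8/RaiseP/PsiNew` apply to the Hecke ring
`T^new_Q := ImageRing.TQ 𝒪 θ (newTw …)` of the `p`-new level `BaseB.newLevel`: the fields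
`NewSide.T := TQ 𝒪 θ (newTw …)`, `NewSide.a := ImageRing.act`, `NewSide.f := ψ`.

* `restrictEnd_eq_restrictTw`, `newTw_eq_restrictTw` (`rfl`);
* `locHyp_newTw` : (LOC) on the big level restricts to the new level;
* **`exists_psi_newTw`** : `ψ : DQ.R ↠ TQ 𝒪 θ (newTw …)` with the five conjuncts of
  `GE6/Inst/PsiPkgMin.exists_psi_pkg_min`, for `DQ` over `condSO 𝒪 p Smin Q`, from (ANN) on the new
  level (binder `hAnn`: `NewAnn.hAnn_ker_new` / the last conjunct of `MainPlug.exists_kerData_ann`).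
-/
import Fermat.Agent.GE8.RaiseP.BaseB
import Fermat.Agent.GE8.P3B.GE8.RaiseP.PsiNew
import Fermat.Agent.GE8.P3B.StepGen
import Fermat.Agent.GE8.P3B.Ok3W

/- TWIN (helper6 B4 generator; conventions of helper24 / helper86) of `Fermat.Agent.GE8.RaiseP.PsiNewBase` with `p ≠ 3` relaxed to `Ok3A Sy 𝔪 p` / `Ok3W p W` (RISK-5 fix (B), step B4); everything below lives in the wrapper namespace `Fermat.Agent.GE8.P3B`. -/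
set_option linter.dupNamespace false
open Fermat Fermat.Agent Fermat.Agent.GB Fermat.Agent.GB.B10 Fermat.Agent.GB.B10.KumLevelHecke Fermat.Agent.GB.B10.L Fermat.Agent.GB.B10.L.StrictQNew Fermat.Agent.GB.B10.L.ThetaNew Fermat.Agent.GB.B3 Fermat.Agent.GB.B3.TWLevel Fermat.Agent.GB.B4 Fermat.Agent.GB.B4.Datum Fermat.Agent.GB.B4.Datum.ImageRing Fermat.Agent.GE Fermat.Agent.GE.Graph Fermat.Agent.GE8 Fermat.Agent.GE8.RaiseP Fermat.Agent.GE8.RaiseP.BaseB Fermat.Agent.GE8.RaiseP.NewLevel Fermat.Agent.GK Fermat.Agent.GK.AL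

namespace Fermat.Agent.GE8.P3B

set_option autoImplicit false
set_option linter.unusedSectionVars false
set_option linter.unusedVariables false
set_option linter.style.haveILetI false

noncomputable section

open scoped TensorProduct
open CuspForm IsLocalRing Polynomial GaloisRep Function
open GB.B4.Datum.ImageRing GB.B10.L.ThetaNew
open GB.B3.TWLevel GE8.RaiseP.NewLevel
open GE8.RaiseP.NewAnn GE8.RaiseP.BaseB GE8.RaiseP.PsiNew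
open GK.AL GB.B10.KumLevelHecke GB.B10.L.StrictQNew
open GE.Graph

namespace GE8.RaiseP.PsiNewBase

/-- `ℚ̄`. -/
local notation "Qb" => AlgebraicClosure ℚ
/-- `G_ℚ`. -/
local notation "GQ" => (AlgebraicClosure ℚ ≃ₐ[ℚ] AlgebraicClosure ℚ)

/-- helper55's `restrictEnd` is `NewAnn.restrictTw`. -/
theorem restrictEnd_eq_restrictTw {O : Type} [CommRing O] {A : Type} [CommRing A]
    {M : Type} [AddCommGroup M] [Module O M] (tw : A →+* Module.End O M) (K : Submodule O M)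
    (hK : ∀ (t : A), ∀ x ∈ K, tw t x ∈ K) :
    restrictEnd tw K hK = restrictTw tw K hK := rfl

section NewTw

variable {𝒪 : Type} [CommRing 𝒪] [IsDomain 𝒪] [IsDiscreteValuationRing 𝒪]
  [IsAdicComplete (maximalIdeal 𝒪) 𝒪] [Finite (ResidueField 𝒪)] [CharZero 𝒪]
  {𝕋 : Type} [CommRing 𝕋] [Algebra 𝒪 𝕋]
  {M0 : Type} [AddCommGroup M0] [Module 𝒪 M0] {act0 : 𝕋 →ₐ[𝒪] Module.End 𝒪 M0}
  {P₁ : Type} [AddCommGroup P₁] [Module 𝒪 P₁] {act₁ : 𝕋 →ₐ[𝒪] Module.End 𝒪 P₁}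
  {P₂ : Type} [AddCommGroup P₂] [Module 𝒪 P₂] {act₂ : 𝕋 →ₐ[𝒪] Module.End 𝒪 P₂}
  {k : ℕ} {N : Fin k → ℕ}
  {F : FreeLevel 𝒪 𝕋 M0 act0 k N} {G₁ : FreeLevel 𝒪 𝕋 P₁ act₁ k N}
  {G₂ : FreeLevel 𝒪 𝕋 P₂ act₂ k N} {f₁ : M0 →ₗ[𝒪] P₁} {f₂ : M0 →ₗ[𝒪] P₂}
  {p : ℕ} [Fact p.Prime] (hp : p.Prime) (hp𝒪 : (p : 𝒪) ∈ maximalIdeal 𝒪)
  (hNp : ∀ i, ∃ n : ℕ, N i = p ^ n) (φα : LevelHom F G₁ f₁) (φβ : LevelHom F G₂ f₂)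
  (hf0 : Surjective (f₁.prod f₂))
  {A : Type} [CommRing A] (twP : A →+* Module.End 𝒪 F.M)
  (tw₁ : A →+* Module.End 𝒪 G₁.M) (tw₂ : A →+* Module.End 𝒪 G₂.M)
  (h₁ : ∀ t x, φα.f (twP t x) = tw₁ t (φα.f x)) (h₂ : ∀ t x, φβ.f (twP t x) = tw₂ t (φβ.f x))

/-- helper55's `newTw` is the restriction `restrictTw` to the common kernel. -/
theorem newTw_eq_restrictTw :
    newTw hp hp𝒪 hNp φα φβ hf0 twP tw₁ tw₂ h₁ h₂ =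
      restrictTw twP (LinearMap.ker (pairHom φα φβ).f)
        (tw_mem_ker_prod twP tw₁ tw₂ φα.f φβ.f h₁ h₂) := rfl

/-- **(LOC) on the big level restricts to the `p`-new level.** -/
theorem locHyp_newTw {θ : A →+* ResidueField 𝒪} (hloc : LocHyp 𝒪 θ twP) :
    LocHyp 𝒪 θ (newTw hp hp𝒪 hNp φα φβ hf0 twP tw₁ tw₂ h₁ h₂) :=
  locHyp_restrictTw hloc (LinearMap.ker (pairHom φα φβ).f)
    (tw_mem_ker_prod twP tw₁ tw₂ φα.f φβ.f h₁ h₂)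

end NewTw

section Psi

variable {N' p : ℕ} [NeZero N'] [Fact p.Prime] {S : Finset ℕ}
  {𝒪 : Type} [CommRing 𝒪] [IsDomain 𝒪] [IsDiscreteValuationRing 𝒪]
  [IsAdicComplete (maximalIdeal 𝒪) 𝒪] [Finite (ResidueField 𝒪)] [CharZero 𝒪]
  {θ : heckeAlgebra (N' * p) 2 (↑S : Set ℕ) →+* ResidueField 𝒪}
  {𝕋 : Type} [CommRing 𝕋] [Algebra 𝒪 𝕋]
  {M0 : Type} [AddCommGroup M0] [Module 𝒪 M0] {act0 : 𝕋 →ₐ[𝒪] Module.End 𝒪 M0}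
  {P₁ : Type} [AddCommGroup P₁] [Module 𝒪 P₁] {act₁ : 𝕋 →ₐ[𝒪] Module.End 𝒪 P₁}
  {P₂ : Type} [AddCommGroup P₂] [Module 𝒪 P₂] {act₂ : 𝕋 →ₐ[𝒪] Module.End 𝒪 P₂}
  {k : ℕ} {N : Fin k → ℕ}
  {F : FreeLevel 𝒪 𝕋 M0 act0 k N} {G₁ : FreeLevel 𝒪 𝕋 P₁ act₁ k N}
  {G₂ : FreeLevel 𝒪 𝕋 P₂ act₂ k N} {f₁ : M0 →ₗ[𝒪] P₁} {f₂ : M0 →ₗ[𝒪] P₂}
  (hp : p.Prime) (hp𝒪 : (p : 𝒪) ∈ maximalIdeal 𝒪)
  (hNp : ∀ i, ∃ n : ℕ, N i = p ^ n) (φα : LevelHom F G₁ f₁) (φβ : LevelHom F G₂ f₂)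
  (hf0 : Surjective (f₁.prod f₂))
  (twP : heckeAlgebra (N' * p) 2 (↑S : Set ℕ) →+* Module.End 𝒪 F.M)
  (tw₁ : heckeAlgebra (N' * p) 2 (↑S : Set ℕ) →+* Module.End 𝒪 G₁.M)
  (tw₂ : heckeAlgebra (N' * p) 2 (↑S : Set ℕ) →+* Module.End 𝒪 G₂.M)
  (h₁ : ∀ t x, φα.f (twP t x) = tw₁ t (φα.f x)) (h₂ : ∀ t x, φβ.f (twP t x) = tw₂ t (φβ.f x))

/-- (LOC) for `newTw`, as an instance. -/
instance fact_locHyp_newTw [hloc : Fact (LocHyp 𝒪 θ twP)] :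
    Fact (LocHyp 𝒪 θ (newTw hp hp𝒪 hNp φα φβ hf0 twP tw₁ tw₂ h₁ h₂)) :=
  ⟨locHyp_newTw hp hp𝒪 hNp φα φβ hf0 twP tw₁ tw₂ h₁ h₂ hloc.out⟩

/-- **R4-G (g2) for `BaseB.newTw`: `ψ_Q : R^SO_Q ↠ T^new_Q := TQ 𝒪 θ (newTw …)`.** -/
theorem exists_psi_newTw [hloc : Fact (LocHyp 𝒪 θ twP)]
    [Nontrivial (newLevel hp hp𝒪 hNp φα φβ hf0).M]
    (hp2 : p ≠ 2)
    (h : ExactDvd p (N' * p)) (hpS : p ∈ S)
    (hNS : ∀ q : ℕ, q.Prime → q ∣ N' * p → q ∈ S)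
    (ρbar : ResidualGaloisRep (ResidueField 𝒪)) (habs : ρbar.IsAbsolutelyIrreducible)
    (hfrob : ∀ (ℓ : ℕ) (hℓ : ℓ.Prime) (hℓN : ¬ ℓ ∣ N' * p) (hℓS : ℓ ∉ (↑S : Set ℕ)),
      ∀ P : ValuationSubring Qb, P.LiesOverPrime ℓ → ∀ σ : GQ, P.IsFrobeniusAt σ ℓ →
        ∃ d₀ : ResidueField 𝒪, LinearMap.charpoly (ρbar.ρ σ) =
          X ^ 2 - C (θ (heckeAlgebra.T hℓ hℓN hℓS)) * X + C d₀)
    (hordbar : (GaloisRepAdic.ofResidualGaloisRep ρbar).IsOrdinaryAt p)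
    (hAnn : ∀ t₀ : 𝒪 ⊗[ℤ] heckeAlgebra (N' * p) 2 (↑S : Set ℕ),
      (∀ (a : 𝒪), ∀ x ∈ (LamNew (not_dvd_of_exactDvd h) :
          AddSubgroup (levelData p (N' * p) hpS hNS).Λ),
        (levelData p (N' * p) hpS hNS).heckeTensor 𝒪 t₀ (a ⊗ₜ[ℤ] x) = 0) →
          ∀ m : (newLevel hp hp𝒪 hNp φα φβ hf0).M,
            twO 𝒪 (newTw hp hp𝒪 hNp φα φβ hf0 twP tw₁ tw₂ h₁ h₂) t₀ m = 0)
    (Smin Q Sun : Finset ℕ) (hpT : p ∈ Smin ∪ Q)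
    (hNT : ∀ q : ℕ, q.Prime → q ∣ N' * p → q ∈ Smin ∪ Q)
    (hSmin : ∀ q ∈ Smin, q.Prime → q ≠ p → q ∣ N' * p ∧ ¬ q ^ 2 ∣ N' * p)
    (hSun : ∀ q ∈ Sun, q.Prime → q ≠ p → q ∣ N' * p ∧ ¬ q ^ 2 ∣ N' * p)
    (DQ : DeformationRingData 𝒪 ρbar (condSO 𝒪 p Smin Q)) :
    ∃ (ψ : DQ.R →ₐ[𝒪] TQ 𝒪 θ (newTw hp hp𝒪 hNp φα φβ hf0 twP tw₁ tw₂ h₁ h₂))
      (hψ : IsLocalHom
        (ψ : DQ.R →+* TQ 𝒪 θ (newTw hp hp𝒪 hNp φα φβ hf0 twP tw₁ tw₂ h₁ h₂)))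
      (ρQ : GaloisRepAdic (TQ 𝒪 θ (newTw hp hp𝒪 hNp φα φβ hf0 twP tw₁ tw₂ h₁ h₂))),
      Function.Surjective ψ ∧
      (DQ.ρ.baseChangeAlong
        (ψ : DQ.R →+* TQ 𝒪 θ (newTw hp hp𝒪 hNp φα φβ hf0 twP tw₁ tw₂ h₁ h₂)) hψ).IsEquiv ρQ ∧
      (∀ (ℓ : ℕ) (hℓ : ℓ.Prime) (hℓN : ¬ ℓ ∣ N' * p) (hℓS : ℓ ∉ (↑S : Set ℕ))
        (A : ValuationSubring Qb), A.LiesOverPrime ℓ → ∀ σ : GQ, A.IsFrobeniusAt σ ℓ →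
          LinearMap.charpoly (ρQ.ρ σ) =
            X ^ 2 - C (chi 𝒪 θ (newTw hp hp𝒪 hNp φα φβ hf0 twP tw₁ tw₂ h₁ h₂)
              (heckeAlgebra.T hℓ hℓN hℓS)) * X
              + C ((ℓ : TQ 𝒪 θ (newTw hp hp𝒪 hNp φα φβ hf0 twP tw₁ tw₂ h₁ h₂)))) ∧
      ρQ.DetIsCyclotomic p ∧
      (∀ q ∈ Sun, q.Prime → q ≠ p → ρQ.IsUnipotentOnInertiaAt q) ∧
      ρQ.residual.IsEquiv
        (ρbar.baseChangeAlong (ResidueField.map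
          (algebraMap 𝒪 (TQ 𝒪 θ (newTw hp hp𝒪 hNp φα φβ hf0 twP tw₁ tw₂ h₁ h₂))))) :=
  exists_psi_TQ_condSO_new (θ := θ) (tw := newTw hp hp𝒪 hNp φα φβ hf0 twP tw₁ tw₂ h₁ h₂)
    hp2 hp𝒪 h hpS hNS ρbar habs hfrob hordbar hAnn Smin Q Sun hpT hNT hSmin hSun DQ

end Psi

end GE8.RaiseP.PsiNewBase

end

end Fermat.Agent.GE8.P3B
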