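/-
GATE-E / RISK-4 PNEW-STAGE, leaf R4-G (g5) (helper55): **the restriction map `T_F → T_K` of image
Hecke rings and the comparison of the Galois representations over them** — the binders
`res hres hresloc hcp` of helper4's `BaseBUnit.hunit_newLevel`, and the raw representation `ρ_F`
over the image ring of the BIG level (no deformation condition: at the level `N₀ p ∏ q` the big
module has `p`-old and `p`-new points).

* `resTQ 𝒪 θ tw tw' hker : TQ 𝒪 θ tw →ₐ[𝒪] TQ 𝒪 θ tw'` for `ker (twO tw) ≤ ker (twO tw')`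
  (`resTQ_mkQ`, `resTQ_chi` : rfl; `resTQ_surjective`, `act_resTQ`, `isLocalHom_resTQ`);
* `ker_twO_le_restrictTw` : a stable submodule; `ker_prodTw_le_restrictTw` : a stable submodule of
  the FIRST factor of a product action (`G2.T = TQ (prodTw tw₁ twχ)`, `K ⊆ M¹_Q`);
* `resK`, `coe_act_resK` : the restriction `TQ (prodTw tw₁ tw₂) → TQ (restrictTw tw₁ K hK)` and
  the binder `hres` of `hunit_newLevel` (`aF := actL`, `aK := act`);
* **`exists_rho_TQ`** : the raw Galois representation over ANY image ring `TQ 𝒪 θ tw` at ANY level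
  (`DatumOfRhobar.exists_datum` pushed along `PushTloc.exists_phi`): Eichler–Shimura for
  `chi (T_ℓ)`, cyclotomic determinant, residually `ρbar`;
* **`hcp_of_frob`** : two representations `ρF` over `TF`, `ρK` over `TK`, residually `ρbar`
  (absolutely irreducible), with the Eichler–Shimura relations for `tF ℓ`, `tK ℓ = res (tF ℓ)`
  ⟹ `charpoly (ρK σ) = (charpoly (ρF σ)).map res` for EVERY `σ` (Chebotarev + Carayol).
-/
import Fermat.Agent.GE8.P3B.GE8.RaiseP.PsiNew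
import Fermat.Agent.GE8.RaiseP.BaseBUnit
import Fermat.Agent.GE9.CotGrowth.Same
import Fermat.Agent.GB.Glue.DatumOfRhobar
import Fermat.Agent.GB.B4.Datum.PushTloc
import Fermat.Agent.GB.B4.Datum.TQFields
import Fermat.Agent.GE8.P3B.StepGen
import Fermat.Agent.GE8.P3B.Ok3W

/- TWIN (helper6 B4 generator; conventions of helper24 / helper86) of `Fermat.Agent.GE8.RaiseP.ResTQ` with `p ≠ 3` relaxed to `Ok3A Sy 𝔪 p` / `Ok3W p W` (RISK-5 fix (B), step B4); everything below lives in the wrapper namespace `Fermat.Agent.GE8.P3B`. -/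
set_option linter.dupNamespace false
open Fermat Fermat.Agent Fermat.Agent.GB Fermat.Agent.GB.B4 Fermat.Agent.GB.B4.Datum Fermat.Agent.GB.B4.Datum.Carrier Fermat.Agent.GB.B4.Datum.ImageRing Fermat.Agent.GB.B4.Datum.Push Fermat.Agent.GB.B4.Datum.TQFields Fermat.Agent.GE8 Fermat.Agent.GE8.RaiseP

namespace Fermat.Agent.GE8.P3B

set_option autoImplicit false
set_option linter.unusedSectionVars false
set_option linter.unusedVariables false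
set_option linter.style.haveILetI false

noncomputable section

namespace GE8.RaiseP.ResTQ

open TensorProduct IsLocalRing Polynomial CuspForm
open GB.B4.Datum.Carrier GB.B4.Datum.ImageRing
  GB.B4.Datum.TQFields GB.B4.Datum.Push
open GE8.RaiseP.NewAnn GE8.RaiseP.PsiNew

/-- `ℚ̄`. -/
local notation "Qb" => AlgebraicClosure ℚ
/-- `G_ℚ`. -/
local notation "GQ" => (AlgebraicClosure ℚ ≃ₐ[ℚ] AlgebraicClosure ℚ)

/-! ### the factor map of image rings -/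

section Res

variable (𝒪 : Type) [CommRing 𝒪] [IsLocalRing 𝒪] {A : Type} [CommRing A]
  (θ : A →+* ResidueField 𝒪)
  {M : Type} [AddCommGroup M] [Module 𝒪 M] {M' : Type} [AddCommGroup M'] [Module 𝒪 M']

/-- **the factor map** `TQ 𝒪 θ tw → TQ 𝒪 θ tw'` when everything killing `M` kills `M'`. -/
def resTQ (tw : A →+* Module.End 𝒪 M) (tw' : A →+* Module.End 𝒪 M')
    (hker : RingHom.ker (twO 𝒪 tw) ≤ RingHom.ker (twO 𝒪 tw')) :
    TQ 𝒪 θ tw →ₐ[𝒪] TQ 𝒪 θ tw' :=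
  Ideal.Quotient.liftₐ (RingHom.ker (twO 𝒪 tw)) (mkQ 𝒪 θ tw')
    (fun a ha => (mkQ_eq_zero_iff 𝒪 θ tw' a).2 (RingHom.mem_ker.1 (hker ha)))

theorem resTQ_mkQ (tw : A →+* Module.End 𝒪 M) (tw' : A →+* Module.End 𝒪 M')
    (hker : RingHom.ker (twO 𝒪 tw) ≤ RingHom.ker (twO 𝒪 tw')) (a : 𝒪 ⊗[ℤ] A) :
    resTQ 𝒪 θ tw tw' hker (mkQ 𝒪 θ tw a) = mkQ 𝒪 θ tw' a := rfl

theorem resTQ_chi (tw : A →+* Module.End 𝒪 M) (tw' : A →+* Module.End 𝒪 M')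
    (hker : RingHom.ker (twO 𝒪 tw) ≤ RingHom.ker (twO 𝒪 tw')) (t : A) :
    resTQ 𝒪 θ tw tw' hker (chi 𝒪 θ tw t) = chi 𝒪 θ tw' t := rfl

theorem resTQ_surjective (tw : A →+* Module.End 𝒪 M) (tw' : A →+* Module.End 𝒪 M')
    (hker : RingHom.ker (twO 𝒪 tw) ≤ RingHom.ker (twO 𝒪 tw')) :
    Function.Surjective (resTQ 𝒪 θ tw tw' hker) := by
  intro y
  obtain ⟨a, rfl⟩ := mkQ_surjective 𝒪 θ tw' y
  exact ⟨mkQ 𝒪 θ tw a, rfl⟩

/-- the action of the restricted element is the induced action. -/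
theorem act_resTQ (tw : A →+* Module.End 𝒪 M) (tw' : A →+* Module.End 𝒪 M')
    (hker : RingHom.ker (twO 𝒪 tw) ≤ RingHom.ker (twO 𝒪 tw')) (x : TQ 𝒪 θ tw) :
    act 𝒪 θ tw' (resTQ 𝒪 θ tw tw' hker x) = actOf 𝒪 θ tw tw' hker x := by
  obtain ⟨a, rfl⟩ := mkQ_surjective 𝒪 θ tw x
  rfl

/-- everything killing `M` kills a stable submodule. -/
theorem ker_twO_le_restrictTw (tw : A →+* Module.End 𝒪 M) (K : Submodule 𝒪 M)
    (hK : ∀ (t : A), ∀ x ∈ K, tw t x ∈ K) :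
    RingHom.ker (twO 𝒪 tw) ≤ RingHom.ker (twO 𝒪 (restrictTw tw K hK)) := by
  intro a ha
  rw [RingHom.mem_ker] at ha ⊢
  refine LinearMap.ext fun x => Subtype.ext ?_
  rw [coe_twO_restrictTw, ha]
  rfl

/-- everything killing `M₁ × M₂` kills a stable submodule of `M₁`. -/
theorem ker_prodTw_le_restrictTw {M₂ : Type} [AddCommGroup M₂] [Module 𝒪 M₂]
    (tw₁ : A →+* Module.End 𝒪 M) (tw₂ : A →+* Module.End 𝒪 M₂) (K : Submodule 𝒪 M)
    (hK : ∀ (t : A), ∀ x ∈ K, tw₁ t x ∈ K) :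
    RingHom.ker (twO 𝒪 (prodTw 𝒪 tw₁ tw₂)) ≤ RingHom.ker (twO 𝒪 (restrictTw tw₁ K hK)) :=
  (ker_le_left 𝒪 tw₁ tw₂).trans (ker_twO_le_restrictTw 𝒪 tw₁ K hK)

/-- **the restriction** `TQ (prodTw tw₁ tw₂) → TQ (restrictTw tw₁ K hK)`. -/
def resK {M₂ : Type} [AddCommGroup M₂] [Module 𝒪 M₂]
    (tw₁ : A →+* Module.End 𝒪 M) (tw₂ : A →+* Module.End 𝒪 M₂) (K : Submodule 𝒪 M)
    (hK : ∀ (t : A), ∀ x ∈ K, tw₁ t x ∈ K) :
    TQ 𝒪 θ (prodTw 𝒪 tw₁ tw₂) →ₐ[𝒪] TQ 𝒪 θ (restrictTw tw₁ K hK) :=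
  resTQ 𝒪 θ (prodTw 𝒪 tw₁ tw₂) (restrictTw tw₁ K hK) (ker_prodTw_le_restrictTw 𝒪 tw₁ tw₂ K hK)

theorem resK_chi {M₂ : Type} [AddCommGroup M₂] [Module 𝒪 M₂]
    (tw₁ : A →+* Module.End 𝒪 M) (tw₂ : A →+* Module.End 𝒪 M₂) (K : Submodule 𝒪 M)
    (hK : ∀ (t : A), ∀ x ∈ K, tw₁ t x ∈ K) (t : A) :
    resK 𝒪 θ tw₁ tw₂ K hK (chi 𝒪 θ (prodTw 𝒪 tw₁ tw₂) t)
      = chi 𝒪 θ (restrictTw tw₁ K hK) t := rfl

theorem resK_surjective {M₂ : Type} [AddCommGroup M₂] [Module 𝒪 M₂]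
    (tw₁ : A →+* Module.End 𝒪 M) (tw₂ : A →+* Module.End 𝒪 M₂) (K : Submodule 𝒪 M)
    (hK : ∀ (t : A), ∀ x ∈ K, tw₁ t x ∈ K) :
    Function.Surjective (resK 𝒪 θ tw₁ tw₂ K hK) :=
  resTQ_surjective 𝒪 θ _ _ _

/-- **the binder `hres` of `BaseBUnit.hunit_newLevel`**: the restricted element acts on `K` as the
element acts on `M₁` (`aF := actL`, `aK := act`). -/
theorem coe_act_resK {M₂ : Type} [AddCommGroup M₂] [Module 𝒪 M₂]
    (tw₁ : A →+* Module.End 𝒪 M) (tw₂ : A →+* Module.End 𝒪 M₂) (K : Submodule 𝒪 M)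
    (hK : ∀ (t : A), ∀ x ∈ K, tw₁ t x ∈ K) (t : TQ 𝒪 θ (prodTw 𝒪 tw₁ tw₂)) (x : K) :
    ((act 𝒪 θ (restrictTw tw₁ K hK) (resK 𝒪 θ tw₁ tw₂ K hK t) x : K) : M)
      = actL 𝒪 θ tw₁ tw₂ t (x : M) := by
  obtain ⟨a, rfl⟩ := mkQ_surjective 𝒪 θ (prodTw 𝒪 tw₁ tw₂) t
  show ((twO 𝒪 (restrictTw tw₁ K hK) a x : K) : M) = twO 𝒪 tw₁ a (x : M)
  exact coe_twO_restrictTw tw₁ K hK a x

end Res

section Loc

variable {𝒪 : Type} [CommRing 𝒪] [IsLocalRing 𝒪] {A : Type} [CommRing A]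
  {θ : A →+* ResidueField 𝒪}
  {M : Type} [AddCommGroup M] [Module 𝒪 M] [Module.Finite 𝒪 M] [Module.Free 𝒪 M] [Nontrivial M]
  {M' : Type} [AddCommGroup M'] [Module 𝒪 M'] [Module.Finite 𝒪 M'] [Module.Free 𝒪 M']
  [Nontrivial M']
  {tw : A →+* Module.End 𝒪 M} {tw' : A →+* Module.End 𝒪 M'}

/-- the factor map of image rings is local. -/
theorem isLocalHom_resTQ [Fact (LocHyp 𝒪 θ tw)] [Fact (LocHyp 𝒪 θ tw')]
    (hker : RingHom.ker (twO 𝒪 tw) ≤ RingHom.ker (twO 𝒪 tw')) :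
    IsLocalHom ((resTQ 𝒪 θ tw tw' hker : TQ 𝒪 θ tw →ₐ[𝒪] TQ 𝒪 θ tw') :
      TQ 𝒪 θ tw →+* TQ 𝒪 θ tw') :=
  IsLocalHom.of_surjective _ (resTQ_surjective 𝒪 θ tw tw' hker)

end Loc

/-! ### the raw Galois representation over an image ring -/

section Rho

variable {p N : ℕ} [NeZero N] [Fact p.Prime] {S : Finset ℕ}
  {𝒪 : Type} [CommRing 𝒪] [IsDomain 𝒪] [IsDiscreteValuationRing 𝒪]
  [IsAdicComplete (maximalIdeal 𝒪) 𝒪] [Finite (ResidueField 𝒪)] [CharZero 𝒪]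
  {θ : heckeAlgebra N 2 (↑S : Set ℕ) →+* ResidueField 𝒪}

/-- **the Galois representation over ANY local `𝒪`-algebra generated by a twist homomorphism
`tw'`, residually `θ`; ANY level, no local condition**: Eichler–Shimura for `tw' (T_ℓ)`,
residually `ρbar`. -/
theorem exists_rho_of_tw {TQ' : Type} [CommRing TQ'] [IsLocalRing TQ'] [Algebra 𝒪 TQ']
    [IsLocalHom (algebraMap 𝒪 TQ')] (hp2 : p ≠ 2)
    (hp𝒪 : (p : 𝒪) ∈ maximalIdeal 𝒪) (hpS : p ∈ S)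
    (hNS : ∀ q : ℕ, q.Prime → q ∣ N → q ∈ S)
    (ρbar : ResidualGaloisRep (ResidueField 𝒪)) (habs : ρbar.IsAbsolutelyIrreducible)
    (hfrob : ∀ (ℓ : ℕ) (hℓ : ℓ.Prime) (hℓN : ¬ ℓ ∣ N) (hℓS : ℓ ∉ (↑S : Set ℕ)),
      ∀ P : ValuationSubring Qb, P.LiesOverPrime ℓ → ∀ σ : GQ, P.IsFrobeniusAt σ ℓ →
        ∃ d₀ : ResidueField 𝒪, LinearMap.charpoly (ρbar.ρ σ) =
          X ^ 2 - C (θ (heckeAlgebra.T hℓ hℓN hℓS)) * X + C d₀)
    (tw' : heckeAlgebra N 2 (↑S : Set ℕ) →+* TQ')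
    (hres : ∀ t, residue TQ' (tw' t) = ResidueField.map (algebraMap 𝒪 TQ') (θ t))
    (hgen : Algebra.adjoin 𝒪 (Set.range tw') = ⊤) :
    ∃ ρQ : GaloisRepAdic TQ',
      (∀ (ℓ : ℕ) (hℓ : ℓ.Prime) (hℓN : ¬ ℓ ∣ N) (hℓS : ℓ ∉ (↑S : Set ℕ))
        (A : ValuationSubring Qb), A.LiesOverPrime ℓ → ∀ σ : GQ, A.IsFrobeniusAt σ ℓ →
          LinearMap.charpoly (ρQ.ρ σ) =
            X ^ 2 - C (tw' (heckeAlgebra.T hℓ hℓN hℓS)) * X + C ((ℓ : TQ'))) ∧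
      ρQ.residual.IsEquiv (ρbar.baseChangeAlong (ResidueField.map (algebraMap 𝒪 TQ'))) := by
  obtain ⟨H, hπ, -, -, hresH⟩ :=
    GB.Glue.DatumOfRhobar.exists_datum p N S 𝒪 θ hp2 hpS hNS hp𝒪 ρbar habs hfrob
  obtain ⟨φ, hφ, hφloc, -⟩ := GB.B4.Datum.PushTloc.exists_phi 𝒪 θ tw' hres hgen
  refine ⟨pushRep H φ.toRingHom hφloc, ?_, ?_⟩
  · intro ℓ hℓ hℓN hℓS A hA σ hσ
    have h := charpoly_frob_push H φ.toRingHom hφloc ℓ hℓ hℓN hℓS A hA σ hσ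
    rw [hπ] at h
    rw [h]
    congr 3
    exact congrArg _ (hφ _)
  · have h1 := GB.B4.Datum.PushTloc.residual_push H.ρ φ.toRingHom hφloc ρbar
      (ResidueField.map (algebraMap 𝒪 (Tloc 𝒪 θ))) hresH
    have h2 : (haveI := hφloc; ResidueField.map φ.toRingHom).comp
        (ResidueField.map (algebraMap 𝒪 (Tloc 𝒪 θ))) = ResidueField.map (algebraMap 𝒪 TQ') := by
      haveI := hφloc
      ext x
      obtain ⟨x, rfl⟩ := IsLocalRing.residue_surjective x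
      show ResidueField.map φ.toRingHom (ResidueField.map (algebraMap 𝒪 (Tloc 𝒪 θ))
        (IsLocalRing.residue 𝒪 x)) = ResidueField.map (algebraMap 𝒪 TQ') (IsLocalRing.residue 𝒪 x)
      rw [ResidueField.map_residue, ResidueField.map_residue, ResidueField.map_residue]
      exact congrArg _ (φ.commutes x)
    rw [h2] at h1
    exact h1

variable {M : Type} [AddCommGroup M] [Module 𝒪 M] [Module.Finite 𝒪 M] [Module.Free 𝒪 M]
  [Nontrivial M] {tw : heckeAlgebra N 2 (↑S : Set ℕ) →+* Module.End 𝒪 M}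

/-- **the Galois representation over the image ring `TQ 𝒪 θ tw`, ANY level, no local condition**:
Eichler–Shimura for `chi (T_ℓ)`, residually `ρbar`. -/
theorem exists_rho_TQ [hloc : Fact (LocHyp 𝒪 θ tw)] (hp2 : p ≠ 2)
    (hp𝒪 : (p : 𝒪) ∈ maximalIdeal 𝒪) (hpS : p ∈ S)
    (hNS : ∀ q : ℕ, q.Prime → q ∣ N → q ∈ S)
    (ρbar : ResidualGaloisRep (ResidueField 𝒪)) (habs : ρbar.IsAbsolutelyIrreducible)
    (hfrob : ∀ (ℓ : ℕ) (hℓ : ℓ.Prime) (hℓN : ¬ ℓ ∣ N) (hℓS : ℓ ∉ (↑S : Set ℕ)),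
      ∀ P : ValuationSubring Qb, P.LiesOverPrime ℓ → ∀ σ : GQ, P.IsFrobeniusAt σ ℓ →
        ∃ d₀ : ResidueField 𝒪, LinearMap.charpoly (ρbar.ρ σ) =
          X ^ 2 - C (θ (heckeAlgebra.T hℓ hℓN hℓS)) * X + C d₀) :
    ∃ ρQ : GaloisRepAdic (TQ 𝒪 θ tw),
      (∀ (ℓ : ℕ) (hℓ : ℓ.Prime) (hℓN : ¬ ℓ ∣ N) (hℓS : ℓ ∉ (↑S : Set ℕ))
        (A : ValuationSubring Qb), A.LiesOverPrime ℓ → ∀ σ : GQ, A.IsFrobeniusAt σ ℓ →
          LinearMap.charpoly (ρQ.ρ σ) =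
            X ^ 2 - C (chi 𝒪 θ tw (heckeAlgebra.T hℓ hℓN hℓS)) * X + C ((ℓ : TQ 𝒪 θ tw))) ∧
      ρQ.residual.IsEquiv
        (ρbar.baseChangeAlong (ResidueField.map (algebraMap 𝒪 (TQ 𝒪 θ tw)))) :=
  exists_rho_of_tw hp2 hp𝒪 hpS hNS ρbar habs hfrob (chi 𝒪 θ tw)
    (fun t => residue_chi (θ := θ) (tw := tw) t) (adjoin_range_chi 𝒪 θ tw)

end Rho

/-! ### comparison of two representations along a local homomorphism -/

section Hcp

variable {k : Type} [Field k]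
  {TF : Type} [CommRing TF] [IsLocalRing TF]
  {TK : Type} [CommRing TK] [IsLocalRing TK] [IsNoetherianRing TK]

/-- **the binder `hcp` of `BaseBUnit.hunit_newLevel` from the two Eichler–Shimura relations**
(Chebotarev + Carayol). -/
theorem hcp_of_frob (res : TF →+* TK) (hres : IsLocalHom res)
    (ρF : GaloisRepAdic TF) (ρK : GaloisRepAdic TK)
    (ρbar : ResidualGaloisRep k) (habs : ρbar.IsAbsolutelyIrreducible)
    (ιF : k →+* ResidueField TF) (ιK : k →+* ResidueField TK)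
    (hι : (haveI := hres; ResidueField.map res).comp ιF = ιK)
    (hF : ρF.residual.IsEquiv (ρbar.baseChangeAlong ιF))
    (hK : ρK.residual.IsEquiv (ρbar.baseChangeAlong ιK))
    (B : Finset ℕ) (tF : ℕ → TF) (tK : ℕ → TK) (ht : ∀ ℓ, tK ℓ = res (tF ℓ))
    (hFfrob : ∀ ℓ : ℕ, ℓ.Prime → ℓ ∉ B → ∀ P : ValuationSubring Qb, P.LiesOverPrime ℓ →
      ∀ σ : GQ, P.IsFrobeniusAt σ ℓ →
        LinearMap.charpoly (ρF.ρ σ) = X ^ 2 - C (tF ℓ) * X + C ((ℓ : ℕ) : TF))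
    (hKfrob : ∀ ℓ : ℕ, ℓ.Prime → ℓ ∉ B → ∀ P : ValuationSubring Qb, P.LiesOverPrime ℓ →
      ∀ σ : GQ, P.IsFrobeniusAt σ ℓ →
        LinearMap.charpoly (ρK.ρ σ) = X ^ 2 - C (tK ℓ) * X + C ((ℓ : ℕ) : TK))
    (σ : GQ) :
    LinearMap.charpoly (ρK.ρ σ) = (LinearMap.charpoly (ρF.ρ σ)).map res := by
  have h1 := GB.B4.Datum.PushTloc.residual_push ρF res hres ρbar ιF hF
  rw [hι] at h1
  have hequiv : ρK.IsEquiv (ρF.baseChangeAlong res hres) :=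
    GE9.CotGrowth.isEquiv_of_charpoly_frob_eq ρK (ρF.baseChangeAlong res hres) ρbar
      habs ιK hK h1 B (fun ℓ hℓ hℓB P hP σ hσ => by
        rw [GE8.RaiseP.BaseBUnit.charpoly_bc res hres ρF σ, hKfrob ℓ hℓ hℓB P hP σ hσ,
          hFfrob ℓ hℓ hℓB P hP σ hσ, ht, Polynomial.map_add, Polynomial.map_sub,
          Polynomial.map_mul, Polynomial.map_pow, Polynomial.map_X, Polynomial.map_C,
          Polynomial.map_C]
        simp only [map_natCast])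
  exact GE8.RaiseP.BaseBUnit.hcp_of_isEquiv res hres ρF ρK hequiv σ

end Hcp

end GE8.RaiseP.ResTQ

end

end Fermat.Agent.GE8.P3B
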