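/-
GATE-E / RISK-4 PNEW-STAGE, leaf R4-G NODE, layer 2, abstract part (helper55): **helper72's record
`NodeProof.RecordAt` on the `p`-new level `BaseB.newLevel φα φβ` of ANY pair of morphisms of
Taylor–Wiles levels, from the big-level suppliers.**

Everything is abstract in the levels (`F`, `G₁`, `G₂`, `φα`, `φβ`: no symbols, no level structure):

* `tNat`, `tNat_eq`, `adjoin_tNat` : the `ℕ`-indexed Hecke elements `t ℓ = tw' (T_ℓ)` of a twist
  homomorphism and (GEN);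
* `exists_rho_of_tw_det` : `ResTQ.exists_rho_of_tw` + the cyclotomic determinant;
* `hunit_newLevel'` : helper4's `BaseBUnit.hunit_newLevel` WITHOUT `hxpow` (labelled units have
  `p`-power order: `UnitTwE.pow_eq_one_of_labelledAt`) and WITHOUT `hdiagF` (the diagonalisation of
  `ρ_F|D_q` is `GE2/DeltaQ.exists_tw_unit`);
* **`nonempty_recordAt_newLevel`** : the record on `newLevel`: `T_Q := TQ 𝒪 θ (restrictTw twF K)`
  (`K = ker (φα, φβ)`), `a := act`, `ψ, ρ_Q` := helper32's `PsiNew.exists_psi_TQ_condSO_new`, (ES),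
  (GEN), (PI) restricted from the big level, (UNIT) := `hunit_newLevel'` with `res := ResTQ.resK`,
  `hres := ResTQ.coe_act_resK`, `hcp := ResTQ.hcp_of_frob`.
-/
import Fermat.Agent.GE8.P3B.GE8.RaiseP.NodeNew
import Fermat.Agent.GE8.P3B.GE8.RaiseP.ResTQ
import Fermat.Agent.GE8.P3B.GE6.Inst.UnitTwE
import Fermat.Agent.GB.B4.Datum.TQReduced
import Fermat.Agent.GE8.P3B.StepGen
import Fermat.Agent.GE8.P3B.Ok3W

/- TWIN (helper6 B4 generator; conventions of helper24 / helper86) of `Fermat.Agent.GE8.RaiseP.RecordNew` with `p ≠ 3` relaxed to `Ok3A Sy 𝔪 p` / `Ok3W p W` (RISK-5 fix (B), step B4); everything below lives in the wrapper namespace `Fermat.Agent.GE8.P3B`. -/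
set_option linter.dupNamespace false
open Fermat Fermat.Agent Fermat.Agent.Common_helper32 Fermat.Agent.GB Fermat.Agent.GB.B10 Fermat.Agent.GB.B10.KumLevelHecke Fermat.Agent.GB.B10.L Fermat.Agent.GB.B10.L.StrictQNew Fermat.Agent.GB.B10.L.ThetaNew Fermat.Agent.GB.B3 Fermat.Agent.GB.B3.TWLevel Fermat.Agent.GB.B4 Fermat.Agent.GB.B4.Datum Fermat.Agent.GB.B4.Datum.Carrier Fermat.Agent.GB.B4.Datum.ImageRing Fermat.Agent.GB.B4.Datum.Push Fermat.Agent.GB.B4.Datum.TQFields Fermat.Agent.GB.B9 Fermat.Agent.GB.B9.ProviderFlat Fermat.Agent.GB.B9.ProviderFlat.G4 Fermat.Agent.GB.E2 Fermat.Agent.GB.E2.TWDiag Fermat.Agent.GB.E2.TameGenAdic Fermat.Agent.GB.Glue Fermat.Agent.GB.Glue.Points Fermat.Agent.GE Fermat.Agent.GE.Graph Fermat.Agent.GE2 Fermat.Agent.GE2.DeltaQ Fermat.Agent.GE2.DeltaQData Fermat.Agent.GE2.LabelMap Fermat.Agent.GE6 Fermat.Agent.GE6.Inst Fermat.Agent.GE8 Fermat.Agent.GE8.RaiseP Fermat.Agent.GE8.RaiseP.BaseB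 Fermat.Agent.GE8.RaiseP.NewLevel Fermat.Agent.GJ Fermat.Agent.GJ.J2 Fermat.Agent.GJ.J2.Lat Fermat.Agent.GK Fermat.Agent.GK.AL

namespace Fermat.Agent.GE8.P3B

set_option autoImplicit false
set_option linter.unusedSectionVars false
set_option linter.unusedVariables false
set_option linter.style.haveILetI false

noncomputable section

namespace GE8.RaiseP.RecordNew

open TensorProduct IsLocalRing Function Polynomial CuspForm GaloisRep
open GB.B3.TWLevel GE8.RaiseP.NewLevel GE8.RaiseP.BaseB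
open GB.B4.Datum.Carrier GB.B4.Datum.ImageRing
  GB.B4.Datum.TQFields GB.B4.Datum.Push
open GE8.RaiseP.NewAnn GE8.RaiseP.PsiNew GE8.RaiseP.ResTQ
open GB.B10.L.ThetaNew
open GE6.Inst.NodeProof
open GE.Graph GE2.DeltaQData GE2.LabelMap
  GE2.DeltaQ GB.E2.TameGenAdic GJ.J2.Lat
open GB.B9.ProviderFlat.G4 GB.E2.TWDiag GB.Glue.Points
  Common_helper32

/-- `ℚ̄`. -/
local notation "Qb" => AlgebraicClosure ℚ
/-- `G_ℚ`. -/
local notation "GQ" => (AlgebraicClosure ℚ ≃ₐ[ℚ] AlgebraicClosure ℚ)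

/-! ### the `ℕ`-indexed Hecke elements -/

section TNat

variable {N : ℕ} [NeZero N] {S : Finset ℕ} {T' : Type} [CommRing T']

/-- **the `ℕ`-indexed Hecke elements** `t ℓ = tw' (T_ℓ)` (`0` at the bad `ℓ`). -/
def tNat (tw' : heckeAlgebra N 2 (↑S : Set ℕ) →+* T') (ℓ : ℕ) : T' :=
  if h : ℓ.Prime ∧ ¬ ℓ ∣ N ∧ ℓ ∉ (↑S : Set ℕ) then tw' (heckeAlgebra.T h.1 h.2.1 h.2.2) else 0

theorem tNat_eq (tw' : heckeAlgebra N 2 (↑S : Set ℕ) →+* T') {ℓ : ℕ} (hℓ : ℓ.Prime)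
    (hℓN : ¬ ℓ ∣ N) (hℓS : ℓ ∉ (↑S : Set ℕ)) :
    tNat tw' ℓ = tw' (heckeAlgebra.T hℓ hℓN hℓS) := dif_pos ⟨hℓ, hℓN, hℓS⟩

theorem tNat_map {T'' : Type} [CommRing T''] (tw' : heckeAlgebra N 2 (↑S : Set ℕ) →+* T')
    (f : T' →+* T'') (ℓ : ℕ) : tNat (f.comp tw') ℓ = f (tNat tw' ℓ) := by
  unfold tNat
  split_ifs
  · rfl
  · rw [map_zero]

/-- **(GEN)**: the `t ℓ`, `ℓ ∉ S`, generate. -/
theorem adjoin_tNat (𝒪 : Type) [CommRing 𝒪] [Algebra 𝒪 T']
    (hNS : ∀ q : ℕ, q.Prime → q ∣ N → q ∈ S)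
    (tw' : heckeAlgebra N 2 (↑S : Set ℕ) →+* T')
    (hgen : Algebra.adjoin 𝒪 (Set.range tw') = ⊤) :
    Algebra.adjoin 𝒪 {x : T' | ∃ ℓ : ℕ, ℓ.Prime ∧ ℓ ∉ S ∧ x = tNat tw' ℓ} = ⊤ := by
  rw [eq_top_iff, ← hgen]
  refine Algebra.adjoin_le ?_
  rintro _ ⟨t, rfl⟩
  have ht : t ∈ Subring.closure (Set.range (formsGenS N (↑S : Set ℕ))) := by
    rw [GB.B4.Twist.TwHom.closure_range_formsGenS]
    exact Subring.mem_top t
  induction ht using Subring.closure_induction with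
  | mem x hx =>
    obtain ⟨l, rfl⟩ := hx
    have hlN : ¬ (l.1 : ℕ) ∣ N := fun h => l.2 (Finset.mem_coe.mpr (hNS _ l.1.2 h))
    refine Algebra.subset_adjoin ⟨(l.1 : ℕ), l.1.2, fun h => l.2 (Finset.mem_coe.mpr h), ?_⟩
    rw [formsGenS_of_not_dvd N (↑S : Set ℕ) l hlN, tNat_eq tw' l.1.2 hlN l.2]
  | zero => rw [map_zero]; exact Subalgebra.zero_mem _
  | one => rw [map_one]; exact Subalgebra.one_mem _
  | add x y _ _ hx hy => rw [map_add]; exact Subalgebra.add_mem _ hx hy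
  | neg x _ hx => rw [map_neg]; exact Subalgebra.neg_mem _ hx
  | mul x y _ _ hx hy => rw [map_mul]; exact Subalgebra.mul_mem _ hx hy

end TNat

/-! ### the raw representation, with its determinant -/

section Rho

variable {p N : ℕ} [NeZero N] [Fact p.Prime] {S : Finset ℕ}
  {𝒪 : Type} [CommRing 𝒪] [IsDomain 𝒪] [IsDiscreteValuationRing 𝒪]
  [IsAdicComplete (maximalIdeal 𝒪) 𝒪] [Finite (ResidueField 𝒪)] [CharZero 𝒪]
  {θ : heckeAlgebra N 2 (↑S : Set ℕ) →+* ResidueField 𝒪}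

/-- `ResTQ.exists_rho_of_tw` with the cyclotomic determinant. -/
theorem exists_rho_of_tw_det {TQ' : Type} [CommRing TQ'] [IsLocalRing TQ'] [Algebra 𝒪 TQ']
    [IsLocalHom (algebraMap 𝒪 TQ')] (hp2 : p ≠ 2)
    (hp𝒪 : (p : 𝒪) ∈ maximalIdeal 𝒪) (hpS : p ∈ S)
    (hNS : ∀ q : ℕ, q.Prime → q ∣ N → q ∈ S)
    (ρbar : ResidualGaloisRep (ResidueField 𝒪)) (habs : ρbar.IsAbsolutelyIrreducible)
    (hfrob : ∀ (ℓ : ℕ) (hℓ : ℓ.Prime) (hℓN : ¬ ℓ ∣ N) (hℓS : ℓ ∉ (↑S : Set ℕ)),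
      ∀ P : ValuationSubring Qb, P.LiesOverPrime ℓ → ∀ σ : GQ, P.IsFrobeniusAt σ ℓ →
        ∃ d₀ : ResidueField 𝒪, LinearMap.charpoly (ρbar.ρ σ) =
          X ^ 2 - C (θ (heckeAlgebra.T hℓ hℓN hℓS)) * X + C d₀)
    (tw' : heckeAlgebra N 2 (↑S : Set ℕ) →+* TQ')
    (hres : ∀ t, residue TQ' (tw' t) = ResidueField.map (algebraMap 𝒪 TQ') (θ t))
    (hgen : Algebra.adjoin 𝒪 (Set.range tw') = ⊤) :
    ∃ ρQ : GaloisRepAdic TQ',
      (∀ (ℓ : ℕ) (hℓ : ℓ.Prime) (hℓN : ¬ ℓ ∣ N) (hℓS : ℓ ∉ (↑S : Set ℕ))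
        (A : ValuationSubring Qb), A.LiesOverPrime ℓ → ∀ σ : GQ, A.IsFrobeniusAt σ ℓ →
          LinearMap.charpoly (ρQ.ρ σ) =
            X ^ 2 - C (tw' (heckeAlgebra.T hℓ hℓN hℓS)) * X + C ((ℓ : TQ'))) ∧
      ρQ.DetIsCyclotomic p ∧
      ρQ.residual.IsEquiv (ρbar.baseChangeAlong (ResidueField.map (algebraMap 𝒪 TQ'))) := by
  obtain ⟨H, hπ, -, -, hresH⟩ :=
    GB.Glue.DatumOfRhobar.exists_datum p N S 𝒪 θ hp2 hpS hNS hp𝒪 ρbar habs hfrob
  obtain ⟨φ, hφ, hφloc, -⟩ := GB.B4.Datum.PushTloc.exists_phi 𝒪 θ tw' hres hgen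
  refine ⟨pushRep H φ.toRingHom hφloc, ?_,
    detIsCyclotomic_push (Fact.out : p.Prime) hp𝒪 hpS H φ.toRingHom hφloc, ?_⟩
  · intro ℓ hℓ hℓN hℓS A hA σ hσ
    have h := charpoly_frob_push H φ.toRingHom hφloc ℓ hℓ hℓN hℓS A hA σ hσ
    rw [hπ] at h
    rw [h]
    congr 3
    exact congrArg _ (hφ _)
  · have h1 := GB.B4.Datum.PushTloc.residual_push H.ρ φ.toRingHom hφloc ρbar
      (ResidueField.map (algebraMap 𝒪 (Tloc 𝒪 θ))) hresH
    have h2 : (haveI := hφloc; ResidueField.map φ.toRingHom).comp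
        (ResidueField.map (algebraMap 𝒪 (Tloc 𝒪 θ))) = ResidueField.map (algebraMap 𝒪 TQ') := by
      haveI := hφloc
      ext x
      obtain ⟨x, rfl⟩ := IsLocalRing.residue_surjective x
      show ResidueField.map φ.toRingHom (ResidueField.map (algebraMap 𝒪 (Tloc 𝒪 θ))
        (IsLocalRing.residue 𝒪 x)) = ResidueField.map (algebraMap 𝒪 TQ') (IsLocalRing.residue 𝒪 x)
      rw [ResidueField.map_residue, ResidueField.map_residue, ResidueField.map_residue]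
      exact congrArg _ (φ.commutes x)
    rw [h2] at h1
    exact h1

end Rho

/-! ### (UNIT) on the new level, without `hxpow` and `hdiagF` -/

section Unit

variable {O : Type} [CommRing O] [IsDomain O] [IsDiscreteValuationRing O]
  [IsAdicComplete (maximalIdeal O) O] [CharZero O]
  {𝕋 : Type} [CommRing 𝕋] [Algebra O 𝕋]
  {M0 : Type} [AddCommGroup M0] [Module O M0] {act0 : 𝕋 →ₐ[O] Module.End O M0}
  {P₁ : Type} [AddCommGroup P₁] [Module O P₁] {act₁ : 𝕋 →ₐ[O] Module.End O P₁}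
  {P₂ : Type} [AddCommGroup P₂] [Module O P₂] {act₂ : 𝕋 →ₐ[O] Module.End O P₂}
  {g : ℕ} {N : Fin g → ℕ} [∀ i, NeZero (N i)]
  {F : FreeLevel O 𝕋 M0 act0 g N} {G₁ : FreeLevel O 𝕋 P₁ act₁ g N}
  {G₂ : FreeLevel O 𝕋 P₂ act₂ g N} {f₁ : M0 →ₗ[O] P₁} {f₂ : M0 →ₗ[O] P₂}
  {p : ℕ} (hp : p.Prime) (hpO : (p : O) ∈ maximalIdeal O)
  (hNp : ∀ i, ∃ n : ℕ, N i = p ^ n) (φα : LevelHom F G₁ f₁) (φβ : LevelHom F G₂ f₂)
  (hf0 : Function.Surjective (f₁.prod f₂))
  {TF : Type} [CommRing TF] [IsLocalRing TF] [Algebra O TF]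
  (aF : TF →ₐ[O] Module.End O F.M)
  {TK : Type} [CommRing TK] [IsLocalRing TK] [Algebra O TK]
  (aK : TK →ₐ[O] Module.End O (newLevel hp hpO hNp φα φβ hf0).M)
  (res : TF →ₐ[O] TK)
  (hres : ∀ (t : TF) (x : LinearMap.ker (pairHom φα φβ).f),
    (LinearMap.ker (pairHom φα φβ).f).subtype (aK (res t) x)
      = aF t ((LinearMap.ker (pairHom φα φβ).f).subtype x))
  (ρF : GaloisRepAdic TF) (ρK : GaloisRepAdic TK)
  (hcp : ∀ σ : GQ, LinearMap.charpoly (ρK.ρ σ)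
    = (LinearMap.charpoly (ρF.ρ σ)).map (res : TF →+* TK))
  (r : Fin g → ℕ)

include hres hcp in
/-- **helper4's `BaseBUnit.hunit_newLevel` without `hxpow` and `hdiagF`.** -/
theorem hunit_newLevel' [hpF : Fact p.Prime] [Finite (ResidueField O)] (hp2 : p ≠ 2)
    (hN : ∀ i, p ∣ N i)
    [IsLocalHom (algebraMap O TK)] [Module.Finite O TK] [IsReduced TK] [IsNoetherianRing TK]
    [IsAdicComplete (maximalIdeal TK) TK]
    [IsLocalHom (algebraMap O TF)] [IsNoetherianRing TF] [IsAdicComplete (maximalIdeal TF) TF]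
    (aK_D : ∀ t i, aK t * (newLevel hp hpO hNp φα φβ hf0).D i
      = (newLevel hp hpO hNp φα φβ hf0).D i * aK t)
    (hresloc : IsLocalHom (res : TF →+* TK))
    (Ω : Type) [Field Ω] [IsAlgClosed Ω] [Algebra O Ω] [Module.IsTorsionFree O Ω]
    (hdetK : ρK.DetIsCyclotomic p) (hdetF : ρF.DetIsCyclotomic p)
    (ρbar : ResidualGaloisRep (ResidueField O))
    (hresidK : ρK.residual.IsEquiv
      (ρbar.baseChangeAlong (ResidueField.map (algebraMap O TK))))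
    (hresidF : ρF.residual.IsEquiv
      (ρbar.baseChangeAlong (ResidueField.map (algebraMap O TF))))
    (hr : ∀ i, (r i).Prime) (hpr : ∀ i, p ∣ r i - 1)
    (hunrbar : ∀ i, ρbar.IsUnramifiedAt (r i))
    (P : Fin g → ValuationSubring Qb) (hP : ∀ i, (P i).LiesOverPrime (r i))
    (φ' : Fin g → GQ) (hφ : ∀ i, (P i).IsFrobeniusAt (φ' i) (r i))
    (τ : Fin g → GQ) (hτ : ∀ i, IsTameGenerator (P i) p (τ i))
    (α β : Fin g → ResidueField O) (hαβ : ∀ i, α i ≠ β i)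
    (hchar : ∀ i, LinearMap.charpoly (ρbar.ρ (φ' i)) = (X - C (α i)) * (X - C (β i)))
    (x : Fin g → TKˣ)
    (hx : ∀ i, LabelledAt ρK (ResidueField.map (algebraMap O TK)) (P i) (φ' i) (τ i) (α i) (β i)
      (x i))
    (h1F : ∀ (i : Fin g) (Bas : Module.Basis (Fin 2) TF ρF.V)
      (χ : Fin 2 → (P i).decompositionSubgroup ℚ →* TFˣ),
      (∀ (j : Fin 2) (σ : (P i).decompositionSubgroup ℚ),
        ρF.ρ (σ : GQ) (Bas j) = (χ j σ : TF) • Bas j) →
      ∀ θ : TF →ₐ[O] Ω, Occ₁ F aF i θ →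
        θ (χ 0 ⟨τ i, inertia_le_decomposition (P i) (hτ i).1⟩ : TF) = 1)
    (hB5F : ∀ (i : Fin g) {O' : Type} [CommRing O'] [IsDomain O'] [IsDiscreteValuationRing O']
      [IsAdicComplete (maximalIdeal O') O'] [Finite (ResidueField O')] [CharZero O']
      (hpO' : (p : O') ∈ maximalIdeal O') (x : TF →+* O') (hx : IsLocalHom x),
      (∀ t : TF, (∀ m, aF t m ∈ F.unitSub p hN i) → x t = 0) →
      ¬ (ρF.baseChangeAlong x hx).IsUnipotentOnInertiaAt (r i)) :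
    ∀ i (m : (newLevel hp hpO hNp φα φβ hf0).M),
      ∃ m' : (newLevel hp hpO hNp φα φβ hf0).M,
        (newLevel hp hpO hNp φα φβ hf0).D i m - m = aK (x i : TK) m' - m' := by
  have hpne : ∀ i, p ≠ r i := by
    intro i h
    have h1 := hpr i
    rw [← h] at h1
    have := Nat.le_of_dvd (by have := hp.two_le; omega) h1
    have := hp.two_le
    omega
  have hliftK : ∀ c : ResidueField O, ∃ t : TK,
      residue TK t = ResidueField.map (algebraMap O TK) c := by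
    intro c
    obtain ⟨c₀, rfl⟩ := residue_surjective c
    exact ⟨algebraMap O TK c₀, (ResidueField.map_residue (algebraMap O TK) c₀).symm⟩
  choose liftK hliftK' using hliftK
  have hliftF : ∀ c : ResidueField O, ∃ t : TF,
      residue TF t = ResidueField.map (algebraMap O TF) c := by
    intro c
    obtain ⟨c₀, rfl⟩ := residue_surjective c
    exact ⟨algebraMap O TF c₀, (ResidueField.map_residue (algebraMap O TF) c₀).symm⟩
  choose liftF hliftF' using hliftF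
  refine GE8.RaiseP.BaseBUnit.hunit_newLevel hp hpO hNp φα φβ hf0 aF aK res hres ρF ρK
    hcp r hp2 hN aK_D hresloc Ω hdetK ρbar hresidK hr hpr hunrbar P hP φ' hφ τ hτ α β hαβ hchar x hx
    (fun i => ?_) (fun i => ?_) h1F hB5F
  · -- the `p`-power order
    have hr1 : r i - 1 ≠ 0 := by
      have := (hr i).two_le
      omega
    obtain ⟨a', m, hm, ham⟩ := Nat.exists_eq_pow_mul_and_not_dvd hr1 p hp.ne_one
    have hram : r i = p ^ a' * m + 1 := by
      have := (hr i).two_le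
      omega
    obtain ⟨htr, hd, hab, -⟩ := GB.B9.ProviderFlat.G4Res.twChars_inputs ρK ρbar
      (ResidueField.map (algebraMap O TK)) hresidK (P i) (hP i) (hunrbar i) (φ' i) (α i) (β i)
      (hαβ i) (hchar i) (liftK (α i)) (liftK (β i)) (hliftK' _) (hliftK' _)
    have hpow := GE6.Inst.UnitTwE.pow_eq_one_of_labelledAt ρK
      (ResidueField.map (algebraMap O TK)) hp (hr i) (hpne i) hdetK
      (isUnramifiedAt_of_isEquiv_baseChangeAlong (ResidueField.map (algebraMap O TK)) ρbar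
        ρK.residual hresidK (hunrbar i))
      (GB.B9.ProviderFlat.G4Res.natCast_sub_one_mem hdetK.1 (hr i).one_le (hpr i))
      (P i) (hP i) (hφ i) (hτ i) (hαβ i) (liftK (α i)) (liftK (β i)) (hliftK' _) (hliftK' _)
      htr hd hab (hx i) a' m hram hm
    refine ⟨a', ?_⟩
    have h' := congrArg Units.val hpow
    rwa [Units.val_pow_eq_pow_val, Units.val_one] at h'
  · -- ONE diagonalisation of `ρ_F|D_{P i}`
    obtain ⟨htr, hd, hab, -⟩ := GB.B9.ProviderFlat.G4Res.twChars_inputs ρF ρbar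
      (ResidueField.map (algebraMap O TF)) hresidF (P i) (hP i) (hunrbar i) (φ' i) (α i) (β i)
      (hαβ i) (hchar i) (liftF (α i)) (liftF (β i)) (hliftF' _) (hliftF' _)
    obtain ⟨B, χ, hχ, -⟩ := exists_tw_unit ρF hp (hr i) (hpne i) hdetF
      (isUnramifiedAt_of_isEquiv_baseChangeAlong (ResidueField.map (algebraMap O TF)) ρbar
        ρF.residual hresidF (hunrbar i))
      (GB.B9.ProviderFlat.G4Res.natCast_sub_one_mem hdetF.1 (hr i).one_le (hpr i))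
      (P i) (hP i) (hφ i) (liftF (α i)) (liftF (β i)) htr hd hab (hτ i)
    exact ⟨B, χ, hχ⟩

end Unit

/-! ### the record on the new level -/

section ActComm

variable {𝒪 : Type} [CommRing 𝒪] [IsLocalRing 𝒪] {A : Type} [CommRing A]
  (θ : A →+* ResidueField 𝒪) {M : Type} [AddCommGroup M] [Module 𝒪 M]

/-- an endomorphism commuting with the Hecke action commutes with the action of the image
ring. -/
theorem act_comm_of_comm (tw : A →+* Module.End 𝒪 M) (D : Module.End 𝒪 M)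
    (h : ∀ t, tw t * D = D * tw t) (x : TQ 𝒪 θ tw) :
    act 𝒪 θ tw x * D = D * act 𝒪 θ tw x := by
  obtain ⟨a, rfl⟩ := mkQ_surjective 𝒪 θ tw x
  rw [act_mkQ]
  induction a using TensorProduct.induction_on with
  | zero => rw [map_zero, zero_mul, mul_zero]
  | tmul c t => rw [twO_tmul, smul_mul_assoc, h, mul_smul_comm]
  | add a b ha hb => rw [map_add, add_mul, mul_add, ha, hb]

end ActComm

section ResMap

variable {O : Type} [CommRing O] [IsLocalRing O]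
  {A : Type} [CommRing A] [IsLocalRing A] [Algebra O A] [IsLocalHom (algebraMap O A)]
  {B : Type} [CommRing B] [IsLocalRing B] [Algebra O B] [IsLocalHom (algebraMap O B)]

/-- the residue maps of the structure maps are compatible with a local algebra homomorphism. -/
theorem residueMap_comp_algebraMap (f : A →ₐ[O] B) (hf : IsLocalHom (f : A →+* B)) :
    (haveI := hf; ResidueField.map (f : A →+* B)).comp (ResidueField.map (algebraMap O A))
      = ResidueField.map (algebraMap O B) := by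
  haveI := hf
  ext x
  obtain ⟨x, rfl⟩ := IsLocalRing.residue_surjective x
  show ResidueField.map (f : A →+* B) (ResidueField.map (algebraMap O A)
      (IsLocalRing.residue O x)) = ResidueField.map (algebraMap O B) (IsLocalRing.residue O x)
  rw [ResidueField.map_residue, ResidueField.map_residue, ResidueField.map_residue]
  exact congrArg (IsLocalRing.residue B) (f.commutes x)

end ResMap

section Record

open GK.AL GB.B10.KumLevelHecke GB.B10.L.StrictQNew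

variable {O : Type} [CommRing O] [IsDomain O] [IsDiscreteValuationRing O]
  [IsAdicComplete (maximalIdeal O) O] [CharZero O] [Finite (ResidueField O)]
  {𝕋 : Type} [CommRing 𝕋] [Algebra O 𝕋]
  {M0 : Type} [AddCommGroup M0] [Module O M0] {act0 : 𝕋 →ₐ[O] Module.End O M0}
  {P₁ : Type} [AddCommGroup P₁] [Module O P₁] {act₁ : 𝕋 →ₐ[O] Module.End O P₁}
  {P₂ : Type} [AddCommGroup P₂] [Module O P₂] {act₂ : 𝕋 →ₐ[O] Module.End O P₂}
  {g : ℕ} {N : Fin g → ℕ} [∀ i, NeZero (N i)]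
  {F : FreeLevel O 𝕋 M0 act0 g N} {G₁ : FreeLevel O 𝕋 P₁ act₁ g N}
  {G₂ : FreeLevel O 𝕋 P₂ act₂ g N} {f₁ : M0 →ₗ[O] P₁} {f₂ : M0 →ₗ[O] P₂}
  {p : ℕ} [hpF : Fact p.Prime] (hpO : (p : O) ∈ maximalIdeal O)
  (hNp : ∀ i, ∃ n : ℕ, N i = p ^ n) (φα : LevelHom F G₁ f₁) (φβ : LevelHom F G₂ f₂)
  (hf0 : Function.Surjective (f₁.prod f₂))
  {N₀ : ℕ} [NeZero N₀] [NeZero (N₀ * p)] {S : Finset ℕ}
  (θ : heckeAlgebra (N₀ * p) 2 (↑S : Set ℕ) →+* ResidueField O)
  (twF : heckeAlgebra (N₀ * p) 2 (↑S : Set ℕ) →+* Module.End O F.M)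
  (hK : ∀ (t : heckeAlgebra (N₀ * p) 2 (↑S : Set ℕ)),
    ∀ x ∈ LinearMap.ker (pairHom φα φβ).f, twF t x ∈ LinearMap.ker (pairHom φα φβ).f)
  {Mχ : Type} [AddCommGroup Mχ] [Module O Mχ]
  (twχ : heckeAlgebra (N₀ * p) 2 (↑S : Set ℕ) →+* Module.End O Mχ)

set_option maxHeartbeats 1600000 in
/-- **R4-G NODE, layer 2, abstract part: the record on the `p`-new level of ANY pair of morphisms
of Taylor–Wiles levels, from the big-level suppliers.** -/
theorem nonempty_recordAt_newLevel (hp2 : p ≠ 2) (hN : ∀ i, p ∣ N i)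
    (hpN₀ : ¬ p ∣ N₀) (hpS : p ∈ S) (hNS : ∀ q : ℕ, q.Prime → q ∣ N₀ * p → q ∈ S)
    (hD : ∀ t i, twF t * F.D i = F.D i * twF t)
    [Fact (LocHyp O θ (prodTw O twF twχ))] [Module.Finite O (F.M × Mχ)]
    [Module.Free O (F.M × Mχ)] [Nontrivial (F.M × Mχ)]
    [Fact (LocHyp O θ twF)] [Nontrivial (LinearMap.ker (pairHom φα φβ).f)]
    -- the residual representation
    (ρbar : ResidualGaloisRep (ResidueField O)) (habs : ρbar.IsAbsolutelyIrreducible)
    (hfrob : ∀ (ℓ : ℕ) (hℓ : ℓ.Prime) (hℓN : ¬ ℓ ∣ N₀ * p) (hℓS : ℓ ∉ (↑S : Set ℕ)),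
      ∀ P : ValuationSubring Qb, P.LiesOverPrime ℓ → ∀ σ : GQ, P.IsFrobeniusAt σ ℓ →
        ∃ d₀ : ResidueField O, LinearMap.charpoly (ρbar.ρ σ) =
          X ^ 2 - C (θ (heckeAlgebra.T hℓ hℓN hℓS)) * X + C d₀)
    (hordbar : (GaloisRepAdic.ofResidualGaloisRep ρbar).IsOrdinaryAt p)
    -- (ANN) on the new level
    (hAnn : ∀ t₀ : O ⊗[ℤ] heckeAlgebra (N₀ * p) 2 (↑S : Set ℕ),
      (∀ (a : O), ∀ x ∈ (LamNew (not_dvd_of_exactDvd (exactDvd_mul_self hpF.out hpN₀)) :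
          AddSubgroup (levelData p (N₀ * p) hpS hNS).Λ),
        (levelData p (N₀ * p) hpS hNS).heckeTensor O t₀ (a ⊗ₜ[ℤ] x) = 0) →
          ∀ m : LinearMap.ker (pairHom φα φβ).f,
            twO O (restrictTw twF (LinearMap.ker (pairHom φα φβ).f) hK) t₀ m = 0)
    -- the deformation problem
    (Smin Q : Finset ℕ) (hpT : p ∈ Smin ∪ Q)
    (hNT : ∀ q : ℕ, q.Prime → q ∣ N₀ * p → q ∈ Smin ∪ Q)
    (hSmin : ∀ q ∈ Smin, q.Prime → q ≠ p → q ∣ N₀ * p ∧ ¬ q ^ 2 ∣ N₀ * p)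
    (DQ : DeformationRingData O ρbar (condSO O p Smin Q))
    -- the representation over the big Hecke ring
    (ρF : GaloisRepAdic (TQ O θ (prodTw O twF twχ)))
    (hESF : ∀ (ℓ : ℕ) (hℓ : ℓ.Prime) (hℓN : ¬ ℓ ∣ N₀ * p) (hℓS : ℓ ∉ (↑S : Set ℕ))
      (A : ValuationSubring Qb), A.LiesOverPrime ℓ → ∀ σ : GQ, A.IsFrobeniusAt σ ℓ →
        LinearMap.charpoly (ρF.ρ σ) =
          X ^ 2 - C (chi O θ (prodTw O twF twχ) (heckeAlgebra.T hℓ hℓN hℓS)) * X
            + C ((ℓ : TQ O θ (prodTw O twF twχ))))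
    (hdetF : ρF.DetIsCyclotomic p)
    (hresidF : ρF.residual.IsEquiv
      (ρbar.baseChangeAlong (ResidueField.map (algebraMap O (TQ O θ (prodTw O twF twχ))))))
    -- the labels
    (r : Fin g → ℕ) (hr : ∀ i, (r i).Prime) (hpr : ∀ i, p ∣ r i - 1)
    (hunrbar : ∀ i, ρbar.IsUnramifiedAt (r i))
    (P : Fin g → ValuationSubring Qb) (hP : ∀ i, (P i).LiesOverPrime (r i))
    (φ' : Fin g → GQ) (hφ : ∀ i, (P i).IsFrobeniusAt (φ' i) (r i))
    (τ : Fin g → GQ) (hτ : ∀ i, IsTameGenerator (P i) p (τ i))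
    (α β : Fin g → ResidueField O) (hαβ : ∀ i, α i ≠ β i)
    (hchar : ∀ i, LinearMap.charpoly (ρbar.ρ (φ' i)) = (X - C (α i)) * (X - C (β i)))
    (gu : Fin g → (DQ.R)ˣ)
    (hlab : ∀ j, LabelledAt DQ.ρ (ResidueField.map (algebraMap O DQ.R)) (P j) (φ' j) (τ j)
      (α j) (β j) (gu j))
    -- (1pt) and (B5) on the big level
    (Ω : Type) [Field Ω] [IsAlgClosed Ω] [Algebra O Ω] [Module.IsTorsionFree O Ω]
    (h1F : ∀ (i : Fin g) (Bas : Module.Basis (Fin 2) (TQ O θ (prodTw O twF twχ)) ρF.V)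
      (χ : Fin 2 → (P i).decompositionSubgroup ℚ →* (TQ O θ (prodTw O twF twχ))ˣ),
      (∀ (j : Fin 2) (σ : (P i).decompositionSubgroup ℚ),
        ρF.ρ (σ : GQ) (Bas j) = (χ j σ : TQ O θ (prodTw O twF twχ)) • Bas j) →
      ∀ θ' : TQ O θ (prodTw O twF twχ) →ₐ[O] Ω, Occ₁ F (actL O θ twF twχ) i θ' →
        θ' (χ 0 ⟨τ i, inertia_le_decomposition (P i) (hτ i).1⟩ :
          TQ O θ (prodTw O twF twχ)) = 1)
    (hB5F : ∀ (i : Fin g) {O' : Type} [CommRing O'] [IsDomain O'] [IsDiscreteValuationRing O']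
      [IsAdicComplete (maximalIdeal O') O'] [Finite (ResidueField O')] [CharZero O']
      (hpO' : (p : O') ∈ maximalIdeal O') (x : TQ O θ (prodTw O twF twχ) →+* O')
      (hx : IsLocalHom x),
      (∀ t : TQ O θ (prodTw O twF twχ),
        (∀ m, actL O θ twF twχ t m ∈ F.unitSub p hN i) → x t = 0) →
      ¬ (ρF.baseChangeAlong x hx).IsUnipotentOnInertiaAt (r i))
    -- (PI) on the big level
    {ι₁ : Type} (pr : ι₁ → ℕ) (sym : ι₁ → 𝕋)
    (hPIF : ∀ l : PrimesOff (↑S : Set ℕ), ∃ s : ι₁, pr s = (l.1 : ℕ) ∧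
      ∀ m : F.M, F.π (twF (formsGenS (N₀ * p) (↑S : Set ℕ) l) m) = F.π (F.act (sym s) m)) :
    Nonempty (RecordAt (newLevel hpF.out hpO hNp φα φβ hf0) ι₁ pr sym DQ gu) := by
  classical
  have hp : p.Prime := hpF.out
  -- the ring side on the new level
  obtain ⟨ψ, hψ, ρK, -, hQρ, hESK, hdetK, -, hresidK⟩ :=
    exists_psi_TQ_condSO_new (θ := θ)
      (tw := restrictTw twF (LinearMap.ker (pairHom φα φβ).f) hK) hp2 hpO
      (exactDvd_mul_self hp hpN₀) hpS hNS ρbar habs hfrob hordbar hAnn Smin Q ∅ hpT hNT hSmin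
      (fun q hq => absurd hq (Finset.notMem_empty q)) DQ
  haveI : IsReduced (TQ O θ (restrictTw twF (LinearMap.ker (pairHom φα φβ).f) hK)) :=
    GB.B4.Datum.TQReduced.isReduced_TQ_hecke θ _ hNS
  have hlN : ∀ ℓ : ℕ, ℓ.Prime → ℓ ∉ S → ¬ ℓ ∣ N₀ * p := fun ℓ hℓ hℓS h => hℓS (hNS ℓ hℓ h)
  have hlS : ∀ ℓ : ℕ, ℓ ∉ S → ℓ ∉ (↑S : Set ℕ) := fun ℓ hℓS h => hℓS (Finset.mem_coe.mp h)
  -- the restriction map
  have hresloc : IsLocalHom ((resK O θ twF twχ (LinearMap.ker (pairHom φα φβ).f) hK :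
      TQ O θ (prodTw O twF twχ) →ₐ[O] TQ O θ (restrictTw twF (LinearMap.ker (pairHom φα φβ).f) hK)) : TQ O θ (prodTw O twF twχ) →+* TQ O θ (restrictTw twF (LinearMap.ker (pairHom φα φβ).f) hK)) :=
    isLocalHom_resTQ (ker_prodTw_le_restrictTw O twF twχ _ hK)
  have hcomp : ((resK O θ twF twχ (LinearMap.ker (pairHom φα φβ).f) hK :
      TQ O θ (prodTw O twF twχ) →ₐ[O] TQ O θ (restrictTw twF (LinearMap.ker (pairHom φα φβ).f) hK)) : TQ O θ (prodTw O twF twχ) →+* TQ O θ (restrictTw twF (LinearMap.ker (pairHom φα φβ).f) hK)).comp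
        (chi O θ (prodTw O twF twχ))
      = chi O θ (restrictTw twF (LinearMap.ker (pairHom φα φβ).f) hK) :=
    RingHom.ext fun t => resK_chi O θ twF twχ _ hK t
  have hι := residueMap_comp_algebraMap (O := O)
    (resK O θ twF twχ (LinearMap.ker (pairHom φα φβ).f) hK) hresloc
  have hcp : ∀ σ : GQ, LinearMap.charpoly (ρK.ρ σ) = (LinearMap.charpoly (ρF.ρ σ)).map
      ((resK O θ twF twχ (LinearMap.ker (pairHom φα φβ).f) hK :
      TQ O θ (prodTw O twF twχ) →ₐ[O] TQ O θ (restrictTw twF (LinearMap.ker (pairHom φα φβ).f) hK)) : TQ O θ (prodTw O twF twχ) →+* TQ O θ (restrictTw twF (LinearMap.ker (pairHom φα φβ).f) hK)) := fun σ =>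
    GE8.RaiseP.ResTQ.hcp_of_frob ((resK O θ twF twχ (LinearMap.ker (pairHom φα φβ).f) hK :
      TQ O θ (prodTw O twF twχ) →ₐ[O] TQ O θ (restrictTw twF (LinearMap.ker (pairHom φα φβ).f) hK)) : TQ O θ (prodTw O twF twχ) →+* TQ O θ (restrictTw twF (LinearMap.ker (pairHom φα φβ).f) hK)) hresloc ρF ρK ρbar habs
      (ResidueField.map (algebraMap O (TQ O θ (prodTw O twF twχ))))
      (ResidueField.map (algebraMap O (TQ O θ (restrictTw twF (LinearMap.ker (pairHom φα φβ).f) hK)))) hι hresidF hresidK S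
      (tNat (chi O θ (prodTw O twF twχ)))
      (tNat (chi O θ (restrictTw twF (LinearMap.ker (pairHom φα φβ).f) hK)))
      (fun ℓ => by rw [← hcomp, tNat_map])
      (fun ℓ hℓ hℓS A hA σ hσ => by
        rw [tNat_eq _ hℓ (hlN ℓ hℓ hℓS) (hlS ℓ hℓS)]
        exact hESF ℓ hℓ (hlN ℓ hℓ hℓS) (hlS ℓ hℓS) A hA σ hσ)
      (fun ℓ hℓ hℓS A hA σ hσ => by
        rw [tNat_eq _ hℓ (hlN ℓ hℓ hℓS) (hlS ℓ hℓS)]
        exact hESK ℓ hℓ (hlN ℓ hℓ hℓS) (hlS ℓ hℓS) A hA σ hσ)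
      σ
  -- (UNIT)
  have hunit := hunit_newLevel' hp hpO hNp φα φβ hf0 (actL O θ twF twχ)
    (act O θ (restrictTw twF (LinearMap.ker (pairHom φα φβ).f) hK))
    (resK O θ twF twχ (LinearMap.ker (pairHom φα φβ).f) hK)
    (fun t x => GE8.RaiseP.ResTQ.coe_act_resK O θ twF twχ _ hK t x)
    ρF ρK hcp r hp2 hN
    (fun t i => act_comm_of_comm θ _ _ (fun t' => by
      refine LinearMap.ext fun x => Subtype.ext ?_
      exact LinearMap.congr_fun (hD t' i) (x : F.M)) t)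
    hresloc Ω hdetK hdetF ρbar hresidK hresidF hr hpr hunrbar P hP φ' hφ τ hτ α β hαβ hchar
    (fun j => Units.map (((ψ : DQ.R →ₐ[O] TQ O θ (restrictTw twF (LinearMap.ker (pairHom φα φβ).f) hK)) : DQ.R →+* TQ O θ (restrictTw twF (LinearMap.ker (pairHom φα φβ).f) hK)) :
      DQ.R →* TQ O θ (restrictTw twF (LinearMap.ker (pairHom φα φβ).f) hK)) (gu j))
    (fun j => labelledAt_map_algHom ψ hψ hQρ (hlab j)) h1F hB5F
  exact ⟨{ TQ := TQ O θ (restrictTw twF (LinearMap.ker (pairHom φα φβ).f) hK)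
           a := act O θ (restrictTw twF (LinearMap.ker (pairHom φα φβ).f) hK)
           ψ := ψ
           hψ := hψ
           ρQ := ρK
           BQ := S
           tQ := tNat (chi O θ (restrictTw twF (LinearMap.ker (pairHom φα φβ).f) hK))
           hQρ := hQρ
           hES := fun ℓ hℓ hℓS A hA σ hσ => by
             rw [tNat_eq _ hℓ (hlN ℓ hℓ hℓS) (hlS ℓ hℓS)]
             exact hESK ℓ hℓ (hlN ℓ hℓ hℓS) (hlS ℓ hℓS) A hA σ hσ
           hGEN := adjoin_tNat O hNS _ (adjoin_range_chi O θ _)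
           hPI := fun ℓ hℓ hℓS => by
             obtain ⟨s, hs, hsm⟩ := hPIF ⟨⟨ℓ, hℓ⟩, hlS ℓ hℓS⟩
             refine ⟨s, hs, fun m => Subtype.ext ?_⟩
             have h1 := hsm ((LinearMap.ker (pairHom φα φβ).f).subtype m)
             rw [formsGenS_of_not_dvd (N₀ * p) (↑S : Set ℕ) ⟨⟨ℓ, hℓ⟩, hlS ℓ hℓS⟩
               (hlN ℓ hℓ hℓS)] at h1
             have h2 : act O θ (restrictTw twF (LinearMap.ker (pairHom φα φβ).f) hK)
                 (tNat (chi O θ (restrictTw twF (LinearMap.ker (pairHom φα φβ).f) hK)) ℓ)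
                 = restrictTw twF (LinearMap.ker (pairHom φα φβ).f) hK
                   (heckeAlgebra.T hℓ (hlN ℓ hℓ hℓS) (hlS ℓ hℓS)) := by
               rw [tNat_eq _ hℓ (hlN ℓ hℓ hℓS) (hlS ℓ hℓS), act_chi]
             exact (congrArg (fun e : Module.End O (LinearMap.ker (pairHom φα φβ).f) =>
               F.π ((e m : LinearMap.ker (pairHom φα φβ).f) : F.M)) h2).trans h1
           hUNIT := fun j m => hunit j m }⟩

end Record

end GE8.RaiseP.RecordNew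

end

end Fermat.Agent.GE8.P3B
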